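/-
PROJECT N (S33), leaf (R2), part 1 (helper3): THE CUTTING ELEMENT.

`𝕋` a commutative ring, `p ∈ 𝔪` an ideal, `𝕋 / p` finite.  There is `h ∈ 𝕋` with `h ≡ 1` modulo `𝔪`
and `h 𝔪ʲ ⊆ p 𝕋` for some `j` (`exists_cut`); hence `hᵏ 𝔪^(j k) ⊆ pᵏ 𝕋` for every `k`
(`pow_mul_mem`).  So the range of `θ(h)ᵏ` on a `𝕋`-module modulo `pᵏ` is killed by `𝔪^(j k)`: it is
inside the `𝔪`-primary part, and `h` maps to a unit under every ring homomorphism `π` to a local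
ring with `π⁻¹(maximal ideal) = 𝔪`.  (`h̄ = 1 - e`, `e` the idempotent generator of the stable value
of the powers of `𝔪` in the finite ring `𝕋 / p`.)  Mathlib only.
-/
import Mathlib

set_option autoImplicit false

namespace Fermat.Agent.S33.KP.CutElt

variable {𝕋 : Type*} [CommRing 𝕋]

/-- In a finite commutative ring the powers of an ideal stabilise at an ideal generated by an
idempotent. -/
theorem exists_idempotent_pow {A : Type*} [CommRing A] [Finite A] (I : Ideal A) :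
    ∃ (n : ℕ) (e : A), 0 < n ∧ IsIdempotentElem e ∧ I ^ n = Ideal.span {e} := by
  have hanti : Antitone fun n : ℕ => I ^ n := fun a b hab => Ideal.pow_le_pow_right hab
  let f : ℕ →o (Ideal A)ᵒᵈ := ⟨fun n => OrderDual.toDual (I ^ n), fun a b hab => hanti hab⟩
  obtain ⟨n, hn⟩ := IsArtinian.monotone_stabilizes f
  have hn' : ∀ m, n ≤ m → I ^ n = I ^ m := fun m hm => congrArg OrderDual.ofDual (hn m hm)
  set n₁ := n + 1 with hn₁
  have h1 : I ^ n₁ = I ^ n := (hn' n₁ (Nat.le_succ n)).symm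
  have hidem : IsIdempotentElem (I ^ n₁) := by
    show I ^ n₁ * I ^ n₁ = I ^ n₁
    rw [← pow_add, h1]
    exact (hn' (n₁ + n₁) (by omega)).symm
  obtain ⟨e, he, hIe⟩ :=
    (Ideal.isIdempotentElem_iff_of_fg (I ^ n₁) (IsNoetherian.noetherian _)).mp hidem
  exact ⟨n₁, e, Nat.succ_pos n, he, hIe⟩

/-- **The cutting element.** -/
theorem exists_cut (p : ℕ) (𝔪 : Ideal 𝕋) (hp𝔪 : (p : 𝕋) ∈ 𝔪)
    [Finite (𝕋 ⧸ Ideal.span {(p : 𝕋)})] :
    ∃ h : 𝕋, h - 1 ∈ 𝔪 ∧ ∃ j : ℕ, ∀ s ∈ 𝔪 ^ j, h * s ∈ Ideal.span {(p : 𝕋)} := by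
  set q := Ideal.Quotient.mk (Ideal.span {(p : 𝕋)}) with hq
  have hsurj : Function.Surjective q := Ideal.Quotient.mk_surjective
  obtain ⟨n, e, hn, he, hne⟩ := exists_idempotent_pow (𝔪.map q)
  obtain ⟨h, hh⟩ := hsurj (1 - e)
  have hle : Ideal.span {(p : 𝕋)} ≤ 𝔪 := (Ideal.span_singleton_le_iff_mem _).mpr hp𝔪
  refine ⟨h, ?_, n, fun s hs => ?_⟩
  · -- `q (h - 1) = -e ∈ (map q 𝔪) ^ n ≤ map q 𝔪`
    have h1 : q (h - 1) ∈ 𝔪.map q := by
      rw [map_sub, hh, map_one]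
      have : (1 - e - 1 : 𝕋 ⧸ Ideal.span {(p : 𝕋)}) = -e := by ring
      rw [this]
      refine Ideal.neg_mem_iff _ |>.mpr ?_
      have h2 : e ∈ 𝔪.map q ^ n := by
        rw [hne]
        exact Ideal.subset_span rfl
      exact Ideal.pow_le_self (Nat.pos_iff_ne_zero.mp hn) h2
    obtain ⟨m, hm, hmq⟩ := (Ideal.mem_map_iff_of_surjective q hsurj).mp h1
    have h3 : h - 1 - m ∈ Ideal.span {(p : 𝕋)} := by
      rw [← Ideal.Quotient.eq_zero_iff_mem, map_sub, hmq, sub_self]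
    have : h - 1 = (h - 1 - m) + m := by ring
    rw [this]
    exact 𝔪.add_mem (hle h3) hm
  · have h1 : q s ∈ 𝔪.map q ^ n := by
      rw [← Ideal.map_pow]
      exact Ideal.mem_map_of_mem q hs
    rw [hne, Ideal.mem_span_singleton'] at h1
    obtain ⟨c, hc⟩ := h1
    rw [← Ideal.Quotient.eq_zero_iff_mem, map_mul, hh, ← hc]
    have : (1 - e) * (c * e) = c * (e - e * e) := by ring
    rw [this, he.eq, sub_self, mul_zero]

/-- The powers: `hᵏ 𝔪^(j k) ⊆ pᵏ 𝕋`. -/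
theorem pow_mul_mem {p : ℕ} {𝔪 : Ideal 𝕋} {h : 𝕋} {j : ℕ}
    (hj : ∀ s ∈ 𝔪 ^ j, h * s ∈ Ideal.span {(p : 𝕋)}) (k : ℕ) {s : 𝕋} (hs : s ∈ 𝔪 ^ (j * k)) :
    h ^ k * s ∈ Ideal.span {(p : 𝕋) ^ k} := by
  have h1 : Ideal.span {h} * 𝔪 ^ j ≤ Ideal.span {(p : 𝕋)} := by
    rw [Ideal.mul_le]
    intro a ha b hb
    obtain ⟨c, rfl⟩ := Ideal.mem_span_singleton'.mp ha
    have : c * h * b = c * (h * b) := by ring
    rw [this]
    exact Ideal.mul_mem_left _ _ (hj b hb)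
  have h2 := Ideal.pow_right_mono h1 k
  rw [mul_pow, Ideal.span_singleton_pow, Ideal.span_singleton_pow, ← pow_mul] at h2
  exact h2 (Ideal.mul_mem_mul (Ideal.subset_span rfl) hs)

end Fermat.Agent.S33.KP.CutElt
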