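/-
PROJECT N (S33), leaf (R1) (helper3): THE THREE-LAYER FLAG OF A MODULE ON WHICH A GROUP `I` SATISFIES
THE EXACT EICHLER-SHIMURA RELATION WITH ORDINARY TRACE, AND THE COARSE FLAG ALONG THE `𝔪`-POWER TORSION.

* `exists_three_layers` (absolute form): `X` a module over a commutative ring `R₀`,
  `r : I →* End X`, `ε : I →* R₀` with `r g + ε g • r g⁻¹ = 1 + ε g` for every `g` (i.e.
  `(r g - 1) (r g - ε g) = 0`), and `τ₀ ∈ I` with `ε τ₀ - 1` invertible.  Then there are submodules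
  `C ≤ D` of `X` such that `I` acts on `C` through `ε`, on `D / C` trivially and on `X / D` through
  `ε`.  No finiteness, no semisimplicity, no Brauer-Nesbitt: `e₂ = (ε τ₀ - 1)⁻¹ (r τ₀ - 1)`,
  `e₁ = 1 - e₂`, `e₁ r(g) e₁ = e₁`, `e₂ r(g) e₂ = ε(g) e₂`, `e₁ r(g) e₂ r(h) e₁ = 0`,
  `C = ∑ e₂ r(h) e₁ X`, `D = e₁ X + C`.
* `restrictHom`, `quotHom` : restriction / quotient of a representation by a stable submodule;
* `exists_three_layers_rel` (relative form): `A₀ ≤ A₃` stable, the relation holds on `A₃` modulo `A₀`;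
* `tors θ 𝔪 i = M[𝔪ⁱ]` for a commuting ring action `θ : 𝕋 →+* End M`;
* `exists_coarse_flag` : if the relation holds on every step `M[𝔪ⁱ⁺¹] / M[𝔪ⁱ]`, there is an
  increasing `C : ℕ → Submodule R₀ M`, `C (3 i) = M[𝔪ⁱ]`, `θ 𝔪 (C (n+1)) ≤ C n`, scalar steps;
* `exists_coarse_addSubgroup` : the same in the literal of `Alg/Reach.reach_of_coarse`
  (`C : ℕ → AddSubgroup M`, `h0`, `hmono`, `hpC`, `hsc` with integer scalars).

Mathlib only.
-/
import Mathlib

set_option autoImplicit false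

namespace Fermat.Agent.S33.KP.Flag

section Absolute

variable {R₀ : Type*} [CommRing R₀] {X : Type*} [AddCommGroup X] [Module R₀ X]
  {I : Type*} [Group I] (r : I →* Module.End R₀ X) (ε : I →* R₀)

theorem inv_apply_apply (g : I) (x : X) : r g⁻¹ (r g x) = x := by
  rw [← Module.End.mul_apply, ← map_mul, inv_mul_cancel, map_one, Module.End.one_apply]

theorem apply_inv_apply (g : I) (x : X) : r g (r g⁻¹ x) = x := by
  rw [← Module.End.mul_apply, ← map_mul, mul_inv_cancel, map_one, Module.End.one_apply]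

variable {r ε}

/-- The second projector `e₂ = u (t - 1)`, `t = r τ₀`, `u = (ε τ₀ - 1)⁻¹`. -/
def proj₂ (r : I →* Module.End R₀ X) (τ₀ : I) (u : R₀) : Module.End R₀ X := u • (r τ₀ - 1)

/-- The first projector `e₁ = 1 - e₂`. -/
def proj₁ (r : I →* Module.End R₀ X) (τ₀ : I) (u : R₀) : Module.End R₀ X := 1 - proj₂ r τ₀ u

theorem proj₂_apply (τ₀ : I) (u : R₀) (x : X) : proj₂ r τ₀ u x = u • (r τ₀ x - x) := rfl

theorem proj₁_apply (τ₀ : I) (u : R₀) (x : X) : proj₁ r τ₀ u x = x - u • (r τ₀ x - x) := rfl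

theorem proj₁_add_proj₂ (τ₀ : I) (u : R₀) (x : X) : proj₁ r τ₀ u x + proj₂ r τ₀ u x = x := by
  rw [proj₁_apply, proj₂_apply]
  abel

variable (hrel : ∀ (g : I) (x : X), r g x + ε g • r g⁻¹ x = (1 + ε g) • x)
  {τ₀ : I} {u : R₀} (hu : u * (ε τ₀ - 1) = 1)

include hrel in
/-- `t² = (1 + ε₀) t - ε₀`. -/
theorem sq_apply (g : I) (x : X) : r g (r g x) = (1 + ε g) • r g x - ε g • x := by
  have h := hrel g (r g x)
  rw [inv_apply_apply] at h
  linear_combination (norm := module) h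

include hrel in
theorem apply_proj₂ (τ₀ : I) (u : R₀) (x : X) : r τ₀ (proj₂ r τ₀ u x) = ε τ₀ • proj₂ r τ₀ u x := by
  rw [proj₂_apply, map_smul, map_sub, sq_apply hrel]
  module

include hrel hu in
theorem apply_proj₁ (x : X) : r τ₀ (proj₁ r τ₀ u x) = proj₁ r τ₀ u x := by
  rw [proj₁_apply, map_sub, map_smul, map_sub, sq_apply hrel]
  linear_combination (norm := module) (-hu) • (r τ₀ x - x)

include hu in
theorem proj₂_of_fix₂ {x : X} (hx : r τ₀ x = ε τ₀ • x) : proj₂ r τ₀ u x = x := by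
  rw [proj₂_apply, hx]
  linear_combination (norm := module) hu • x

theorem proj₁_of_fix₁ (τ₀ : I) (u : R₀) {x : X} (hx : r τ₀ x = x) : proj₁ r τ₀ u x = x := by
  rw [proj₁_apply, hx, sub_self, smul_zero, sub_zero]

include hrel hu in
/-- `e₁ r(g) e₁ = e₁`. -/
theorem proj₁_apply_of_fix₁ (g : I) {x : X} (hx : r τ₀ x = x) : proj₁ r τ₀ u (r g x) = x := by
  have h1 := hrel g x
  have h2 := hrel (g * τ₀) x
  have h3 := hrel τ₀ (r g x)
  rw [mul_inv_rev, map_mul, map_mul, map_mul, Module.End.mul_apply, Module.End.mul_apply, hx] at h2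
  -- `ε g • r τ₀⁻¹ (r g⁻¹ x) = (1 + ε g) • x - r τ₀⁻¹ (r g x)`
  have h4 := congrArg (r τ₀⁻¹) h1
  have hx' : r τ₀⁻¹ x = x := by
    conv_lhs => rw [← hx]
    exact inv_apply_apply r τ₀ x
  rw [map_add, map_smul, map_smul, hx'] at h4
  rw [proj₁_apply]
  linear_combination (norm := module) (-u) • h2 + (u * ε τ₀) • h4 + (-u) • h3 + (-hu) • (r g x - x)

include hrel hu in
/-- `e₂ r(g) e₂ = ε(g) e₂`. -/
theorem proj₂_apply_of_fix₂ (g : I) {x : X} (hx : r τ₀ x = ε τ₀ • x) :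
    proj₂ r τ₀ u (r g x) = ε g • x := by
  have h1 := hrel g x
  have h2 := hrel (g * τ₀) x
  have h3 := hrel τ₀ (r g x)
  rw [mul_inv_rev, map_mul, map_mul, map_mul, Module.End.mul_apply, Module.End.mul_apply, hx,
    map_smul] at h2
  have h4 := congrArg (r τ₀⁻¹) h1
  have hx' : ε τ₀ • r τ₀⁻¹ x = x := by
    rw [← map_smul, ← hx]
    exact inv_apply_apply r τ₀ x
  rw [map_add, map_smul, map_smul] at h4
  rw [proj₂_apply]
  linear_combination (norm := module)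
    u • h2 + (-(u * ε τ₀)) • h4 + (-(u * (1 + ε g))) • hx' + u • h3 + ε g • (hu • x)

include hrel hu in
/-- `e₁ r(g) e₂ r(h) e₁ = 0`. -/
theorem proj₁_apply_proj₂_apply (g h : I) {x : X} (hx : r τ₀ x = x) :
    proj₁ r τ₀ u (r g (proj₂ r τ₀ u (r h x))) = 0 := by
  have h1 := proj₁_apply_of_fix₁ hrel hu (g * h) hx
  have h2 := proj₁_apply_of_fix₁ hrel hu h hx
  have h3 := proj₁_apply_of_fix₁ hrel hu g hx
  have h4 := proj₁_add_proj₂ (r := r) τ₀ u (r h x)
  rw [h2] at h4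
  rw [map_mul, Module.End.mul_apply, ← h4, map_add, map_add, h3] at h1
  exact add_eq_left.mp h1

/-- The bottom layer: the span of the `e₂ r(h) e₁ x`. -/
def layerC (r : I →* Module.End R₀ X) (τ₀ : I) (u : R₀) : Submodule R₀ X :=
  Submodule.span R₀ {c | ∃ (h : I) (x : X), r τ₀ x = x ∧ c = proj₂ r τ₀ u (r h x)}

/-- The `1`-eigenspace of `t = r τ₀`. -/
def fix₁ (r : I →* Module.End R₀ X) (τ₀ : I) : Submodule R₀ X := LinearMap.ker (r τ₀ - 1)

theorem mem_fix₁ (τ₀ : I) (x : X) : x ∈ fix₁ r τ₀ ↔ r τ₀ x = x := by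
  rw [fix₁, LinearMap.mem_ker, LinearMap.sub_apply, Module.End.one_apply, sub_eq_zero]

/-- The middle layer `D = X₁ + C`. -/
def layerD (r : I →* Module.End R₀ X) (τ₀ : I) (u : R₀) : Submodule R₀ X :=
  fix₁ r τ₀ ⊔ layerC r τ₀ u

theorem layerC_le_layerD (τ₀ : I) (u : R₀) : layerC r τ₀ u ≤ layerD r τ₀ u := le_sup_right

include hrel hu in
/-- `I` acts on `C` through `ε`. -/
theorem apply_of_mem_layerC (g : I) {x : X} (hx : x ∈ layerC r τ₀ u) : r g x = ε g • x := by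
  have hle : layerC r τ₀ u ≤ LinearMap.ker (r g - ε g • (1 : Module.End R₀ X)) := by
    refine Submodule.span_le.mpr ?_
    rintro _ ⟨h, x, hx, rfl⟩
    rw [SetLike.mem_coe, LinearMap.mem_ker, LinearMap.sub_apply, LinearMap.smul_apply,
      Module.End.one_apply, sub_eq_zero]
    have h1 := proj₁_apply_proj₂_apply hrel hu g h hx
    have h2 := proj₂_apply_of_fix₂ hrel hu g (apply_proj₂ hrel τ₀ u (r h x))
    have h3 := proj₁_add_proj₂ (r := r) τ₀ u (r g (proj₂ r τ₀ u (r h x)))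
    rw [h1, h2, zero_add] at h3
    exact h3.symm
  have := hle hx
  rwa [LinearMap.mem_ker, LinearMap.sub_apply, LinearMap.smul_apply, Module.End.one_apply,
    sub_eq_zero] at this

include hrel hu in
theorem apply_sub_mem_layerC_of_fix₁ (g : I) {x : X} (hx : r τ₀ x = x) :
    r g x - x ∈ layerC r τ₀ u := by
  have h1 := proj₁_apply_of_fix₁ hrel hu g hx
  have h2 := proj₁_add_proj₂ (r := r) τ₀ u (r g x)
  rw [h1] at h2
  have : r g x - x = proj₂ r τ₀ u (r g x) := sub_eq_iff_eq_add'.mpr h2.symm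
  rw [this]
  exact Submodule.subset_span ⟨g, x, hx, rfl⟩

include hrel hu in
/-- `I` acts trivially on `D / C`. -/
theorem apply_sub_mem_layerC (g : I) {x : X} (hx : x ∈ layerD r τ₀ u) :
    r g x - x ∈ layerC r τ₀ u := by
  obtain ⟨x₁, hx₁, c, hc, rfl⟩ := Submodule.mem_sup.mp hx
  rw [mem_fix₁] at hx₁
  have h1 := apply_sub_mem_layerC_of_fix₁ hrel hu g hx₁
  have h2 : r g c - c = (ε g - 1) • c := by
    rw [apply_of_mem_layerC hrel hu g hc]
    module
  have : r g (x₁ + c) - (x₁ + c) = (r g x₁ - x₁) + (r g c - c) := by rw [map_add]; abel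
  rw [this, h2]
  exact Submodule.add_mem _ h1 (Submodule.smul_mem _ _ hc)

include hrel hu in
/-- `I` acts on `X / D` through `ε`. -/
theorem apply_sub_smul_mem_layerD (g : I) (x : X) : r g x - ε g • x ∈ layerD r τ₀ u := by
  have hx := proj₁_add_proj₂ (r := r) τ₀ u x
  have hp₁ : r τ₀ (proj₁ r τ₀ u x) = proj₁ r τ₀ u x := apply_proj₁ hrel hu x
  have hp₂ : r τ₀ (proj₂ r τ₀ u x) = ε τ₀ • proj₂ r τ₀ u x := apply_proj₂ hrel τ₀ u x
  -- the `e₁`-part
  have h1 : r g (proj₁ r τ₀ u x) - ε g • proj₁ r τ₀ u x ∈ layerD r τ₀ u := by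
    have e : r g (proj₁ r τ₀ u x) - ε g • proj₁ r τ₀ u x =
        (1 - ε g) • proj₁ r τ₀ u x + (r g (proj₁ r τ₀ u x) - proj₁ r τ₀ u x) := by module
    rw [e]
    exact Submodule.add_mem _
      (Submodule.smul_mem _ _ (Submodule.mem_sup_left ((mem_fix₁ τ₀ _).mpr hp₁)))
      (Submodule.mem_sup_right (apply_sub_mem_layerC_of_fix₁ hrel hu g hp₁))
  -- the `e₂`-part
  have h2 : r g (proj₂ r τ₀ u x) - ε g • proj₂ r τ₀ u x ∈ layerD r τ₀ u := by
    have h3 := proj₁_add_proj₂ (r := r) τ₀ u (r g (proj₂ r τ₀ u x))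
    rw [proj₂_apply_of_fix₂ hrel hu g hp₂] at h3
    have e : r g (proj₂ r τ₀ u x) - ε g • proj₂ r τ₀ u x =
        proj₁ r τ₀ u (r g (proj₂ r τ₀ u x)) := sub_eq_iff_eq_add.mpr h3.symm
    rw [e]
    exact Submodule.mem_sup_left ((mem_fix₁ τ₀ _).mpr (apply_proj₁ hrel hu _))
  have e : r g x - ε g • x = (r g (proj₁ r τ₀ u x) - ε g • proj₁ r τ₀ u x) +
      (r g (proj₂ r τ₀ u x) - ε g • proj₂ r τ₀ u x) := by
    conv_lhs => rw [← hx]
    rw [map_add, smul_add]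
    abel
  rw [e]
  exact Submodule.add_mem _ h1 h2

include hrel hu in
/-- **The three layers.** -/
theorem exists_three_layers :
    ∃ C D : Submodule R₀ X, C ≤ D ∧ (∀ g, ∀ x ∈ C, r g x = ε g • x) ∧
      (∀ g, ∀ x ∈ D, r g x - x ∈ C) ∧ ∀ g x, r g x - ε g • x ∈ D :=
  ⟨layerC r τ₀ u, layerD r τ₀ u, layerC_le_layerD τ₀ u,
    fun g _ hx => apply_of_mem_layerC hrel hu g hx,
    fun g _ hx => apply_sub_mem_layerC hrel hu g hx,
    fun g x => apply_sub_smul_mem_layerD hrel hu g x⟩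

end Absolute

/-! ### Restriction and quotient of a representation -/

section RestrictQuot

variable {R₀ : Type*} [CommRing R₀] {M : Type*} [AddCommGroup M] [Module R₀ M]
  {I : Type*} [Group I] (r : I →* Module.End R₀ M)

/-- Restriction of a representation to a stable submodule. -/
def restrictHom (B : Submodule R₀ M) (hB : ∀ g, ∀ x ∈ B, r g x ∈ B) :
    I →* Module.End R₀ ↥B where
  toFun g := (r g).restrict (hB g)
  map_one' := by
    ext x
    rw [LinearMap.coe_restrict_apply, map_one, Module.End.one_apply, Module.End.one_apply]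
  map_mul' g h := by
    ext x
    rw [LinearMap.coe_restrict_apply, map_mul, Module.End.mul_apply, Module.End.mul_apply,
      LinearMap.coe_restrict_apply, LinearMap.coe_restrict_apply]

@[simp]
theorem coe_restrictHom_apply (B : Submodule R₀ M) (hB : ∀ g, ∀ x ∈ B, r g x ∈ B) (g : I)
    (x : ↥B) : ((restrictHom r B hB g x : ↥B) : M) = r g (x : M) := rfl

/-- Quotient of a representation by a stable submodule. -/
def quotHom (A : Submodule R₀ M) (hA : ∀ g, ∀ x ∈ A, r g x ∈ A) :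
    I →* Module.End R₀ (M ⧸ A) where
  toFun g := A.mapQ A (r g) (fun x hx => hA g x hx)
  map_one' := by
    apply Submodule.linearMap_qext
    ext x
    rw [LinearMap.comp_apply, Submodule.mkQ_apply, Submodule.mapQ_apply, map_one,
      Module.End.one_apply, LinearMap.comp_apply, Module.End.one_apply, Submodule.mkQ_apply]
  map_mul' g h := by
    apply Submodule.linearMap_qext
    ext x
    rw [LinearMap.comp_apply, Submodule.mkQ_apply, Submodule.mapQ_apply, map_mul,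
      LinearMap.comp_apply, Module.End.mul_apply, Module.End.mul_apply, Submodule.mkQ_apply,
      Submodule.mapQ_apply, Submodule.mapQ_apply]

@[simp]
theorem quotHom_mk (A : Submodule R₀ M) (hA : ∀ g, ∀ x ∈ A, r g x ∈ A) (g : I) (x : M) :
    quotHom r A hA g (Submodule.Quotient.mk x) = Submodule.Quotient.mk (r g x) := rfl

end RestrictQuot

/-! ### The relative form -/

section Relative

variable {R₀ : Type*} [CommRing R₀] {M : Type*} [AddCommGroup M] [Module R₀ M]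
  {I : Type*} [Group I] {r : I →* Module.End R₀ M} {ε : I →* R₀}

/-- **The three layers, relative form.** `A₀ ≤ A₃` stable submodules such that the exact relation
holds on `A₃` modulo `A₀`: there are `A₀ ≤ A₁ ≤ A₂ ≤ A₃` with `I` acting through `ε`, trivially,
through `ε` on the three steps. -/
theorem exists_three_layers_rel {A₀ A₃ : Submodule R₀ M} (h03 : A₀ ≤ A₃)
    (hA₀ : ∀ g, ∀ x ∈ A₀, r g x ∈ A₀) (hA₃ : ∀ g, ∀ x ∈ A₃, r g x ∈ A₃)
    (hrel : ∀ g, ∀ x ∈ A₃, r g x + ε g • r g⁻¹ x - (1 + ε g) • x ∈ A₀)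
    {τ₀ : I} {u : R₀} (hu : u * (ε τ₀ - 1) = 1) :
    ∃ A₁ A₂ : Submodule R₀ M, A₀ ≤ A₁ ∧ A₁ ≤ A₂ ∧ A₂ ≤ A₃ ∧
      (∀ g, ∀ x ∈ A₁, r g x - ε g • x ∈ A₀) ∧ (∀ g, ∀ x ∈ A₂, r g x - x ∈ A₁) ∧
      ∀ g, ∀ x ∈ A₃, r g x - ε g • x ∈ A₂ := by
  set rB : I →* Module.End R₀ ↥A₃ := restrictHom r A₃ hA₃ with hrB
  set A₀' : Submodule R₀ ↥A₃ := A₀.comap A₃.subtype with hA₀'
  have hst : ∀ g, ∀ y ∈ A₀', rB g y ∈ A₀' := fun g y hy => hA₀ g _ hy
  set rX : I →* Module.End R₀ (↥A₃ ⧸ A₀') := quotHom rB A₀' hst with hrX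
  have hrelX : ∀ (g : I) (x : ↥A₃ ⧸ A₀'), rX g x + ε g • rX g⁻¹ x = (1 + ε g) • x := by
    intro g x
    induction x using Submodule.Quotient.induction_on with
    | H y =>
      rw [hrX, quotHom_mk, quotHom_mk, ← Submodule.Quotient.mk_smul, ← Submodule.Quotient.mk_smul,
        ← Submodule.Quotient.mk_add, Submodule.Quotient.eq]
      exact hrel g y y.2
  obtain ⟨C, D, hCD, h1, h2, h3⟩ := exists_three_layers hrelX hu
  refine ⟨(C.comap A₀'.mkQ).map A₃.subtype, (D.comap A₀'.mkQ).map A₃.subtype, ?_,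
    Submodule.map_mono (Submodule.comap_mono hCD), Submodule.map_subtype_le _ _, ?_, ?_, ?_⟩
  · intro x hx
    refine ⟨⟨x, h03 hx⟩, ?_, rfl⟩
    have h0 : A₀'.mkQ ⟨x, h03 hx⟩ = 0 := by
      rw [Submodule.mkQ_apply, Submodule.Quotient.mk_eq_zero]
      exact hx
    rw [SetLike.mem_coe, Submodule.mem_comap, h0]
    exact C.zero_mem
  · rintro g _ ⟨y, hy, rfl⟩
    have h := h1 g _ hy
    rw [Submodule.mkQ_apply, hrX, quotHom_mk, ← Submodule.Quotient.mk_smul,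
      Submodule.Quotient.eq] at h
    exact h
  · rintro g _ ⟨y, hy, rfl⟩
    have h := h2 g _ hy
    rw [Submodule.mkQ_apply, hrX, quotHom_mk, ← Submodule.Quotient.mk_sub] at h
    exact ⟨rB g y - y, h, rfl⟩
  · intro g x hx
    have h := h3 g (Submodule.Quotient.mk ⟨x, hx⟩)
    rw [hrX, quotHom_mk, ← Submodule.Quotient.mk_smul, ← Submodule.Quotient.mk_sub] at h
    exact ⟨rB g ⟨x, hx⟩ - ε g • ⟨x, hx⟩, h, rfl⟩

end Relative

/-! ### The coarse flag along the `𝔪`-power torsion -/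

section Coarse

variable {R₀ : Type*} [CommRing R₀] {M : Type*} [AddCommGroup M] [Module R₀ M]
  {I : Type*} [Group I] {r : I →* Module.End R₀ M} {ε : I →* R₀}
  {𝕋 : Type*} [CommRing 𝕋] (θ : 𝕋 →+* Module.End R₀ M) (𝔪 : Ideal 𝕋)

/-- `M[𝔪ⁱ]`: the elements killed by `θ (𝔪ⁱ)`. -/
def tors (i : ℕ) : Submodule R₀ M where
  carrier := {x | ∀ s ∈ 𝔪 ^ i, θ s x = 0}
  add_mem' := by
    intro a b ha hb s hs
    rw [map_add, ha s hs, hb s hs, add_zero]
  zero_mem' := fun s _ => map_zero _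
  smul_mem' := by
    intro c x hx s hs
    rw [map_smul, hx s hs, smul_zero]

theorem mem_tors {i : ℕ} {x : M} : x ∈ tors θ 𝔪 i ↔ ∀ s ∈ 𝔪 ^ i, θ s x = 0 := Iff.rfl

theorem tors_zero : tors θ 𝔪 0 = ⊥ := by
  refine le_antisymm (fun x hx => ?_) bot_le
  have h := hx 1 (by rw [pow_zero, Ideal.one_eq_top]; exact Submodule.mem_top)
  rw [map_one, Module.End.one_apply] at h
  rw [h]
  exact Submodule.zero_mem _

theorem tors_le_succ (i : ℕ) : tors θ 𝔪 i ≤ tors θ 𝔪 (i + 1) := fun _ hx s hs =>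
  hx s (Ideal.pow_le_pow_right (Nat.le_succ i) hs)

theorem apply_mem_tors {i : ℕ} {s : 𝕋} (hs : s ∈ 𝔪) {x : M} (hx : x ∈ tors θ 𝔪 (i + 1)) :
    θ s x ∈ tors θ 𝔪 i := by
  intro s' hs'
  rw [← Module.End.mul_apply, ← map_mul]
  refine hx _ ?_
  rw [pow_succ]
  exact Ideal.mul_mem_mul hs' hs

variable {θ}

theorem apply_mem_tors_of_commute (hcomm : ∀ t g, Commute (θ t) (r g)) (g : I) {i : ℕ} {x : M}
    (hx : x ∈ tors θ 𝔪 i) : r g x ∈ tors θ 𝔪 i := by
  intro s hs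
  rw [← Module.End.mul_apply, (hcomm s g).eq, Module.End.mul_apply, hx s hs, map_zero]

/-- **The coarse flag.** If `I` satisfies the exact relation with ordinary trace on every step
`M[𝔪ⁱ⁺¹] / M[𝔪ⁱ]`, there is an increasing sequence `C` of submodules with `C (3 i) = M[𝔪ⁱ]` such
that `θ 𝔪` maps `C (n + 1)` into `C n` and every `g ∈ I` acts on `C (n + 1) / C n` through a scalar
(`ε g` or `1`). -/
theorem exists_coarse_flag (hcomm : ∀ t g, Commute (θ t) (r g))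
    (hrel : ∀ (i : ℕ) (g : I), ∀ x ∈ tors θ 𝔪 (i + 1),
      r g x + ε g • r g⁻¹ x - (1 + ε g) • x ∈ tors θ 𝔪 i)
    {τ₀ : I} {u : R₀} (hu : u * (ε τ₀ - 1) = 1) :
    ∃ C : ℕ → Submodule R₀ M, C 0 = ⊥ ∧ (∀ n, C n ≤ C (n + 1)) ∧ (∀ i, C (3 * i) = tors θ 𝔪 i) ∧
      (∀ n, ∀ s ∈ 𝔪, ∀ x ∈ C (n + 1), θ s x ∈ C n) ∧
      ∀ n g, ∃ c : R₀, (c = ε g ∨ c = 1) ∧ ∀ x ∈ C (n + 1), r g x - c • x ∈ C n := by
  have key : ∀ i : ℕ, ∃ A₁ A₂ : Submodule R₀ M, tors θ 𝔪 i ≤ A₁ ∧ A₁ ≤ A₂ ∧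
      A₂ ≤ tors θ 𝔪 (i + 1) ∧ (∀ g, ∀ x ∈ A₁, r g x - ε g • x ∈ tors θ 𝔪 i) ∧
      (∀ g, ∀ x ∈ A₂, r g x - x ∈ A₁) ∧ ∀ g, ∀ x ∈ tors θ 𝔪 (i + 1), r g x - ε g • x ∈ A₂ :=
    fun i => exists_three_layers_rel (tors_le_succ θ 𝔪 i)
      (fun g _ hx => apply_mem_tors_of_commute 𝔪 hcomm g hx)
      (fun g _ hx => apply_mem_tors_of_commute 𝔪 hcomm g hx) (hrel i) hu
  choose A₁ A₂ h01 h12 h23 hs1 hs2 hs3 using key
  set C : ℕ → Submodule R₀ M := fun n =>
    if n % 3 = 0 then tors θ 𝔪 (n / 3) else if n % 3 = 1 then A₁ (n / 3) else A₂ (n / 3) with hC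
  have hC0 : ∀ n, n % 3 = 0 → C n = tors θ 𝔪 (n / 3) := fun n h => by
    simp only [hC, h, if_true]
  have hC1 : ∀ n, n % 3 = 1 → C n = A₁ (n / 3) := fun n h => by
    simp only [hC, h, if_true, one_ne_zero, if_false]
  have hC2 : ∀ n, n % 3 = 2 → C n = A₂ (n / 3) := fun n h => by
    have h1 : (2 : ℕ) ≠ 0 := by omega
    have h2 : (2 : ℕ) ≠ 1 := by omega
    simp only [hC, h, h1, h2, if_false]
  have hcases : ∀ n : ℕ, n % 3 = 0 ∨ n % 3 = 1 ∨ n % 3 = 2 := fun n => by omega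
  refine ⟨C, ?_, ?_, ?_, ?_, ?_⟩
  · rw [hC0 0 rfl]
    exact tors_zero θ 𝔪
  · intro n
    rcases hcases n with h | h | h
    · rw [hC0 n h, hC1 (n + 1) (by omega), show (n + 1) / 3 = n / 3 by omega]
      exact h01 _
    · rw [hC1 n h, hC2 (n + 1) (by omega), show (n + 1) / 3 = n / 3 by omega]
      exact h12 _
    · rw [hC2 n h, hC0 (n + 1) (by omega), show (n + 1) / 3 = n / 3 + 1 by omega]
      exact h23 _
  · intro i
    rw [hC0 (3 * i) (by omega), show 3 * i / 3 = i by omega]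
  · intro n s hs x hx
    -- `x ∈ M[𝔪^(n/3+1)]` in all cases, and `θ s x ∈ M[𝔪^(n/3)] ≤ C n`
    have hx3 : x ∈ tors θ 𝔪 (n / 3 + 1) := by
      rcases hcases n with h | h | h
      · rw [hC1 (n + 1) (by omega), show (n + 1) / 3 = n / 3 by omega] at hx
        exact h23 _ (h12 _ hx)
      · rw [hC2 (n + 1) (by omega), show (n + 1) / 3 = n / 3 by omega] at hx
        exact h23 _ hx
      · rw [hC0 (n + 1) (by omega), show (n + 1) / 3 = n / 3 + 1 by omega] at hx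
        exact hx
    have h0 : θ s x ∈ tors θ 𝔪 (n / 3) := apply_mem_tors θ 𝔪 hs hx3
    rcases hcases n with h | h | h
    · rw [hC0 n h]
      exact h0
    · rw [hC1 n h]
      exact h01 _ h0
    · rw [hC2 n h]
      exact h12 _ (h01 _ h0)
  · intro n g
    rcases hcases n with h | h | h
    · refine ⟨ε g, Or.inl rfl, fun x hx => ?_⟩
      rw [hC1 (n + 1) (by omega), show (n + 1) / 3 = n / 3 by omega] at hx
      rw [hC0 n h]
      exact hs1 _ g x hx
    · refine ⟨1, Or.inr rfl, fun x hx => ?_⟩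
      rw [hC2 (n + 1) (by omega), show (n + 1) / 3 = n / 3 by omega] at hx
      rw [hC1 n h, one_smul]
      exact hs2 _ g x hx
    · refine ⟨ε g, Or.inl rfl, fun x hx => ?_⟩
      rw [hC0 (n + 1) (by omega), show (n + 1) / 3 = n / 3 + 1 by omega] at hx
      rw [hC2 n h]
      exact hs3 _ g x hx

/-- **The coarse flag in the literal of `Alg/Reach.reach_of_coarse`**: additive subgroups, `p •` and
integer scalars.  `hint` says that the scalars of `R₀` act on `M` through integers (`R₀ = ℤ_[p]`,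
`M` killed by a power of `p`). -/
theorem exists_coarse_addSubgroup (hcomm : ∀ t g, Commute (θ t) (r g))
    (hrel : ∀ (i : ℕ) (g : I), ∀ x ∈ tors θ 𝔪 (i + 1),
      r g x + ε g • r g⁻¹ x - (1 + ε g) • x ∈ tors θ 𝔪 i)
    {τ₀ : I} {u : R₀} (hu : u * (ε τ₀ - 1) = 1)
    {p : ℕ} (hp𝔪 : (p : 𝕋) ∈ 𝔪) (hint : ∀ c : R₀, ∃ χ : ℤ, ∀ x : M, c • x = χ • x) :
    ∃ C : ℕ → AddSubgroup M, C 0 = ⊥ ∧ (∀ j, C j ≤ C (j + 1)) ∧
      (∀ j, ∀ b ∈ C (j + 1), p • b ∈ C j) ∧
      (∀ j (g : I), ∃ χ : ℤ, ∀ b ∈ C (j + 1), r g b - χ • b ∈ C j) ∧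
      ∀ i, C (3 * i) = (tors θ 𝔪 i).toAddSubgroup := by
  obtain ⟨C, h0, hmono, h3, hm, hsc⟩ := exists_coarse_flag 𝔪 hcomm hrel hu
  refine ⟨fun j => (C j).toAddSubgroup, ?_, fun j => ?_, fun j b hb => ?_, fun j g => ?_,
    fun i => ?_⟩
  · show (C 0).toAddSubgroup = ⊥
    rw [h0, Submodule.bot_toAddSubgroup]
  · exact Submodule.toAddSubgroup_mono (hmono j)
  · have h := hm j (p : 𝕋) hp𝔪 b hb
    rw [map_natCast, Module.End.natCast_apply] at h
    exact h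
  · obtain ⟨c, -, hc⟩ := hsc j g
    obtain ⟨χ, hχ⟩ := hint c
    refine ⟨χ, fun b hb => ?_⟩
    have h := hc b hb
    rw [hχ b] at h
    exact h
  · show (C (3 * i)).toAddSubgroup = _
    rw [h3 i]

end Coarse

end Fermat.Agent.S33.KP.Flag
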