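/-
PROJECT N (S33), leaf (R2), part 2 (helper3): THE ABSTRACT FINITE-LEVEL (KP-id).

`M` a finite module over `R₀` with a Galois action `r : G →* End M`, a commuting Hecke action
`θ : 𝕋 →+* End M`, an ideal `𝔪 ∋ p` of `𝕋`, a subgroup `I` of `G` satisfying the exact relation with
ordinary trace on the steps `M[𝔪ⁱ⁺¹] / M[𝔪ⁱ]`, an `I`-stable subgroup `S` of `M` containing
`(σ - 1) M` for `σ ∈ I`, such that every `τ ∈ I` acts on every REACHABLE subgroup of `S` through the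
integer `e τ` (the Raynaud input: `S` = the classes in the kernel of reduction, SEAM Ω).  Then
`(τ - e τ) (σ - 1) = 0` on `M[𝔪ᵇ]` for all `σ τ ∈ I` and all `b`.
-/
import Fermat.Agent.S33.KP.Flag
import Fermat.Agent.S33.Alg.Reach

set_option autoImplicit false

namespace Fermat.Agent.S33.KP.LevelAbs

open Fermat.Agent.S33.KP.Flag Fermat.Agent.S33.Alg.Reach

variable {R₀ : Type*} [CommRing R₀] {M : Type*} [AddCommGroup M] [Module R₀ M] [Finite M]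
  {G : Type*} [Group G] {r : G →* Module.End R₀ M} {ε : G →* R₀}
  {𝕋 : Type*} [CommRing 𝕋] {θ : 𝕋 →+* Module.End R₀ M}

/-- The action of the subgroup `I` on `M` by additive maps (the `act` of `Alg/Reach`). -/
def actOn (r : G →* Module.End R₀ M) (I : Subgroup G) : ↥I → M →+ M :=
  fun τ => (r (τ : G)).toAddMonoidHom

omit [Finite M] in
@[simp]
theorem actOn_apply (I : Subgroup G) (τ : ↥I) (x : M) : actOn r I τ x = r (τ : G) x := rfl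

/-- **Reachability of `M[𝔪ᵇ] ⊓ S`** for every `I`-stable subgroup `S`. -/
theorem reach_tors_inf (𝔪 : Ideal 𝕋) (I : Subgroup G) (hcomm : ∀ t g, Commute (θ t) (r g))
    (hrel : ∀ (i : ℕ), ∀ g ∈ I, ∀ x ∈ tors θ 𝔪 (i + 1),
      r g x + ε g • r g⁻¹ x - (1 + ε g) • x ∈ tors θ 𝔪 i)
    {τ₀ : G} (hτ₀ : τ₀ ∈ I) {u : R₀} (hu : u * (ε τ₀ - 1) = 1)
    {p : ℕ} (hp : p.Prime) (hp𝔪 : (p : 𝕋) ∈ 𝔪)
    (hint : ∀ c : R₀, ∃ χ : ℤ, ∀ x : M, c • x = χ • x)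
    (S : AddSubgroup M) (hS : ∀ τ ∈ I, ∀ s ∈ S, r τ s ∈ S) (b : ℕ) :
    Reach (fun τ : ↥I => ⇑(actOn r I τ)) p ((tors θ 𝔪 b).toAddSubgroup ⊓ S) := by
  obtain ⟨C, h0, hmono, hpC, hsc, h3⟩ :=
    exists_coarse_addSubgroup (r := r.comp I.subtype) (ε := ε.comp I.subtype) 𝔪
      (fun t g => hcomm t _) (fun i g x hx => hrel i g g.2 x hx)
      (τ₀ := ⟨τ₀, hτ₀⟩) hu hp𝔪 hint
  have := reach_inf_of_coarse (act := actOn r I) hp C h0 hmono hpC hsc S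
    (fun τ s hs => hS τ τ.2 s hs) (3 * b)
  rwa [h3 b] at this

/-- **The abstract finite-level (KP-id).** -/
theorem kp_on_tors (𝔪 : Ideal 𝕋) (I : Subgroup G) (hcomm : ∀ t g, Commute (θ t) (r g))
    (hrel : ∀ (i : ℕ), ∀ g ∈ I, ∀ x ∈ tors θ 𝔪 (i + 1),
      r g x + ε g • r g⁻¹ x - (1 + ε g) • x ∈ tors θ 𝔪 i)
    {τ₀ : G} (hτ₀ : τ₀ ∈ I) {u : R₀} (hu : u * (ε τ₀ - 1) = 1)
    {p : ℕ} (hp : p.Prime) (hp𝔪 : (p : 𝕋) ∈ 𝔪)
    (hint : ∀ c : R₀, ∃ χ : ℤ, ∀ x : M, c • x = χ • x)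
    (S : AddSubgroup M) (hS : ∀ τ ∈ I, ∀ s ∈ S, r τ s ∈ S)
    (hsub : ∀ σ ∈ I, ∀ x : M, r σ x - x ∈ S) (e : G → ℕ)
    (hΩ : ∀ B : AddSubgroup M, B ≤ S → Reach (fun τ : ↥I => ⇑(actOn r I τ)) p B →
      ∀ τ ∈ I, ∀ z ∈ B, r τ z = e τ • z)
    (b : ℕ) {x : M} (hx : x ∈ tors θ 𝔪 b) {σ τ : G} (hσ : σ ∈ I) (hτ : τ ∈ I) :
    r τ (r σ x - x) = e τ • (r σ x - x) := by
  refine hΩ _ inf_le_right
    (reach_tors_inf 𝔪 I hcomm hrel hτ₀ hu hp hp𝔪 hint S hS b) τ hτ _ ⟨?_, hsub σ hσ x⟩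
  exact (tors θ 𝔪 b).sub_mem (apply_mem_tors_of_commute 𝔪 hcomm σ hx) hx

end Fermat.Agent.S33.KP.LevelAbs
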