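/-
PROJECT N (S33), leaf (R2), part 3 (helper3): THE ONE PLACE WHERE `hres` ENTERS.

If the residual representation of `ρ : GaloisRepAdic T` is ordinary at `p` (the Prelude's literal on
`GaloisRepAdic.ofResidualGaloisRep ρ.residual`), then for every `τ` in the inertia group of a
valuation subring `P` of `ℚ̄` over `p`

  `tr ρ(τ) ≡ 1 + det ρ(τ)`  modulo the maximal ideal of `T`   (`trace_sub_mem_maximalIdeal`).

(`ρ̄(τ)` is `(a c; 0 1)` in a basis adapted to the ordinary line.)
-/
import Mathlib
import Fermat.Prelude.Def_GaloisRep_LocalConditions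

set_option autoImplicit false

namespace Fermat.Agent.S33.KP.ResInertia

open IsLocalRing
open scoped TensorProduct

/-- An endomorphism of a free module of rank two which preserves the line `R ∙ b 0` and is the
identity modulo it has trace `1 + det`. -/
theorem trace_eq_one_add_det {R : Type*} [CommRing R] {V : Type*} [AddCommGroup V] [Module R V]
    (b : Module.Basis (Fin 2) R V) (f : Module.End R V)
    (h0 : f (b 0) ∈ Submodule.span R {b 0}) (h1 : f (b 1) - b 1 ∈ Submodule.span R {b 0}) :
    LinearMap.trace R V f = 1 + LinearMap.det f := by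
  obtain ⟨a, ha⟩ := Submodule.mem_span_singleton.mp h0
  obtain ⟨c, hc⟩ := Submodule.mem_span_singleton.mp h1
  have hf1 : f (b 1) = c • b 0 + b 1 := by rw [hc]; abel
  have h00 : LinearMap.toMatrix b b f 0 0 = a := by
    rw [LinearMap.toMatrix_apply, ← ha, map_smul, Module.Basis.repr_self]
    simp
  have h10 : LinearMap.toMatrix b b f 1 0 = 0 := by
    rw [LinearMap.toMatrix_apply, ← ha, map_smul, Module.Basis.repr_self]
    simp
  have h11 : LinearMap.toMatrix b b f 1 1 = 1 := by
    rw [LinearMap.toMatrix_apply, hf1, map_add, map_smul, Module.Basis.repr_self,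
      Module.Basis.repr_self]
    simp
  rw [LinearMap.trace_eq_matrix_trace R b f, ← LinearMap.det_toMatrix b f, Matrix.trace_fin_two,
    Matrix.det_fin_two, h00, h10, h11]
  ring

variable {T : Type} [CommRing T] [IsLocalRing T]

/-- **The residual trace on inertia.** -/
theorem trace_sub_mem_maximalIdeal (ρ : GaloisRepAdic T) {p : ℕ}
    (hres : (GaloisRepAdic.ofResidualGaloisRep ρ.residual).IsOrdinaryAt p)
    {P : ValuationSubring (AlgebraicClosure ℚ)} (hP : P.LiesOverPrime p)
    {τ : AlgebraicClosure ℚ ≃ₐ[ℚ] AlgebraicClosure ℚ} (hτ : τ ∈ P.inertiaSubgroupIn ℚ) :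
    LinearMap.trace T ρ.V (ρ.ρ τ) - (1 + LinearMap.det (ρ.ρ τ)) ∈ maximalIdeal T := by
  obtain ⟨L, ⟨b, hL⟩, hstab, hquot⟩ := hres P hP
  have hτD : τ ∈ P.decompositionSubgroup ℚ := by
    obtain ⟨d, -, rfl⟩ := Subgroup.mem_map.mp hτ
    exact d.2
  have h0 : (GaloisRepAdic.ofResidualGaloisRep ρ.residual).ρ τ (b 0) ∈
      Submodule.span (ResidueField T) {b 0} := by
    rw [← hL]
    exact hstab τ hτD (b 0) (by rw [hL]; exact Submodule.mem_span_singleton_self _)
  have h1 : (GaloisRepAdic.ofResidualGaloisRep ρ.residual).ρ τ (b 1) - b 1 ∈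
      Submodule.span (ResidueField T) {b 0} := by
    rw [← hL]
    exact hquot τ hτ (b 1)
  have key := trace_eq_one_add_det b _ h0 h1
  have htr : LinearMap.trace (ResidueField T) (GaloisRepAdic.ofResidualGaloisRep ρ.residual).V
      ((GaloisRepAdic.ofResidualGaloisRep ρ.residual).ρ τ) =
      residue T (LinearMap.trace T ρ.V (ρ.ρ τ)) := by
    change LinearMap.trace (ResidueField T) _ ((ρ.ρ τ).baseChange (ResidueField T)) = _
    rw [LinearMap.trace_baseChange, ResidueField.algebraMap_eq]
  have hdet : LinearMap.det ((GaloisRepAdic.ofResidualGaloisRep ρ.residual).ρ τ) =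
      residue T (LinearMap.det (ρ.ρ τ)) := by
    change LinearMap.det ((ρ.ρ τ).baseChange (ResidueField T)) = _
    rw [LinearMap.det_baseChange, ResidueField.algebraMap_eq]
  rw [htr, hdet] at key
  rw [← residue_eq_zero_iff, map_sub, map_add, map_one, sub_eq_zero]
  exact key

end Fermat.Agent.S33.KP.ResInertia
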