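/-
PROJECT N (S33), leaf (R2), part 5 (helper3): (KP-id) AT EVERY FINITE LEVEL OF THE TATE MODULE.

Frame: `Λ = Tp p J` a Hecke-Galois module over `ℤ_p` (`S31/Core.HeckeModule`, e.g.
`S32/TateHecke.hasTheta` for `J = J₀(N)`), `ρ : GaloisRepAdic T` with Frobenius characteristic
polynomials `X² - π(T_ℓ) X + ℓ`, `det ρ = cyc`, residually ordinary at `p` (`hres`),
`𝔪 := π⁻¹(𝔪_T)`, `A` a valuation subring of `ℚ̄` over `p`, `I_A` its inertia group.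

* `thetaK`, `relK` : the Hecke action and the exact Eichler-Shimura relation on
  `Λ_k = Λ / pᵏ Λ` (`S31` approximation + `S32/TransferCore.red_rel`);
* `approx_sub_mem` : the approximant `b` of `g ∈ I_A` is `≡ 1 + cyc g` modulo `𝔪` (`hres`);
* `hrel_step` : the hypothesis `hrel` of `KP/LevelAbs` on the steps `Λ_k[𝔪ⁱ⁺¹] / Λ_k[𝔪ⁱ]`;
* `kp_level_of_omega` : PLUG H8: from SEAM Ω (the chief's literal `exists_inertiaFrame`, taken as a
  hypothesis) `(τ - cycExp k τ) (σ - 1) = 0` on `Λ_k[𝔪ᵇ]` for all `σ τ ∈ I_A`, all `b`;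
* `kp_tate_of_level` : the same on `T_p J`: `((τ - cycExp k τ) (σ - 1)) (θ(h)ᵏ v) ∈ pᵏ Λ` when
  `h 𝔪ʲ ⊆ p 𝕋` (`KP/CutElt`), the input of the localised transfer.
-/
import Fermat.Prelude.Def_GaloisRep_LocalConditions
import Fermat.Agent.S32.Level
import Fermat.Agent.S15.P.CycAct
import Fermat.Agent.S33.Alg.OrdOfKP
import Fermat.Agent.S33.KP.CutElt
import Fermat.Agent.S33.KP.LevelAbs
import Fermat.Agent.S33.KP.ResInertia
import Fermat.Agent.S33.KP.LevelFrame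

set_option autoImplicit false
set_option linter.unusedSectionVars false

noncomputable section

namespace Fermat.Agent.S33.KP.Level

open IsLocalRing
open Fermat.Agent.S31.Core
open Fermat.Agent.S30.Algebra
open Fermat.Agent.S30.Algebra.DetGalois (Density)
open Fermat.Agent.S30.Padic.TateModule
open Fermat.Agent.S32.TransferCore
open Fermat.Agent.S33.KP.Flag Fermat.Agent.S33.KP.LevelFrame Fermat.Agent.S33.KP.LevelAbs
open Fermat.Agent.S33.Alg.Reach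

variable {p : ℕ} [Fact p.Prime] {J : Type*} [AddCommGroup J] [DistribMulAction GQ J]
  {𝕋 : Type*} [CommRing 𝕋] {Sg : Finset ℕ} {Tl : ℕ → 𝕋}
  {θΛ : 𝕋 →+* Module.End ℤ_[p] (Tp p J)}
  {T : Type} [CommRing T] [IsLocalRing T]

/-- The Hecke action on `Λ_k`. -/
def thetaK (θΛ : 𝕋 →+* Module.End ℤ_[p] (Tp p J)) (k : ℕ) :
    𝕋 →+* Module.End ℤ_[p] (Lk p J k) :=
  ((redEnd (Ideal.span {(p : ℤ_[p])} ^ k) :
    Module.End ℤ_[p] (Tp p J) →ₐ[ℤ_[p]] _) : Module.End ℤ_[p] (Tp p J) →+* _).comp θΛ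

@[simp] theorem thetaK_mk (k : ℕ) (t : 𝕋) (v : Tp p J) :
    thetaK θΛ k t (Submodule.Quotient.mk v) = Submodule.Quotient.mk (θΛ t v) := rfl

theorem commute_thetaK_rk
    (hcommAll : ∀ (t : 𝕋) (g : GQ), Commute (θΛ t) (Tp.galoisHom (p := p) (J := J) GQ g))
    (k : ℕ) (t : 𝕋) (g : GQ) : Commute (thetaK θΛ k t) (rk p J k g) :=
  (hcommAll t g).map (redEnd (Ideal.span {(p : ℤ_[p])} ^ k))

/-- **The exact Eichler-Shimura relation on `Λ_k`** with its trace link. -/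
theorem relK (hM : HeckeModule Sg (Ideal.span {(p : ℤ_[p])}) Tl
      (Tp.galoisHom (p := p) (J := J) GQ) (eps p) θΛ)
    (ρ : GaloisRepAdic T) (π : 𝕋 →+* T) (hcp : FrobCharpolyVia ρ Sg Tl π) (hdens : Density Sg)
    (k : ℕ) (g : GQ) :
    ∃ b : 𝕋, rk p J k g + eps p g • rk p J k g⁻¹ = thetaK θΛ k b ∧
      LinearMap.trace T ρ.V (ρ.ρ g) - π b ∈ maximalIdeal T := by
  obtain ⟨b, hb1, hb2⟩ := exists_approx hM ρ π hcp hdens g (max k 1)
  refine ⟨b, ?_, ?_⟩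
  · exact red_rel (smallEnd_mono (Ideal.pow_le_pow_right (le_max_left k 1)) hb1)
  · exact Ideal.pow_le_self (by omega) hb2

/-- `eps p g` is an integer modulo `p`. -/
theorem exists_int_eps (g : GQ) : ∃ (n : ℤ) (w : ℤ_[p]), eps p g - (n : ℤ_[p]) = (p : ℤ_[p]) * w := by
  have h := PadicInt.appr_spec 1 (eps p g)
  rw [pow_one, Ideal.mem_span_singleton'] at h
  obtain ⟨w, hw⟩ := h
  exact ⟨((eps p g).appr 1 : ℤ), w, by rw [Int.cast_natCast, ← hw, mul_comm]⟩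

/-- **`hres` on the Hecke side**: the approximant of an inertia element is `≡ 1 + cyc` modulo
`𝔪 = π⁻¹(𝔪_T)`. -/
theorem approx_sub_mem (ρ : GaloisRepAdic T) (π : 𝕋 →+* T) (ι : ℤ_[p] →+* T)
    (hdet : ∀ g : GQ, LinearMap.det (ρ.ρ g) = Cyclotomic.cycChar p ι g)
    (hpT : (p : T) ∈ maximalIdeal T)
    (hres : (GaloisRepAdic.ofResidualGaloisRep ρ.residual).IsOrdinaryAt p)
    {A : ValuationSubring Qbar} (hA : A.LiesOverPrime p) {g : GQ}
    (hg : g ∈ A.inertiaSubgroupIn ℚ) {b : 𝕋}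
    (hb : LinearMap.trace T ρ.V (ρ.ρ g) - π b ∈ maximalIdeal T)
    {n : ℤ} {w : ℤ_[p]} (hn : eps p g - (n : ℤ_[p]) = (p : ℤ_[p]) * w) :
    b - (1 + (n : 𝕋)) ∈ Ideal.comap π (maximalIdeal T) := by
  rw [Ideal.mem_comap, map_sub, map_add, map_one, map_intCast]
  have h1 := Fermat.Agent.S33.KP.ResInertia.trace_sub_mem_maximalIdeal ρ hres hA hg
  rw [hdet g, Cyclotomic.cycChar_apply] at h1
  have h2 : ι ((Cyclotomic.cyc p g : ℤ_[p]ˣ) : ℤ_[p]) - (n : T) ∈ maximalIdeal T := by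
    have e : ι ((Cyclotomic.cyc p g : ℤ_[p]ˣ) : ℤ_[p]) - (n : T) = ι (eps p g - (n : ℤ_[p])) := by
      rw [map_sub, map_intCast]
      rfl
    rw [e, hn, map_mul, map_natCast]
    exact Ideal.mul_mem_right _ _ hpT
  have e : π b - (1 + (n : T)) =
      -(LinearMap.trace T ρ.V (ρ.ρ g) - π b) +
        (LinearMap.trace T ρ.V (ρ.ρ g) - (1 + ι ((Cyclotomic.cyc p g : ℤ_[p]ˣ) : ℤ_[p]))) +
        (ι ((Cyclotomic.cyc p g : ℤ_[p]ˣ) : ℤ_[p]) - (n : T)) := by ring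
  rw [e]
  exact Ideal.add_mem _ (Ideal.add_mem _ (Ideal.neg_mem_iff _ |>.mpr hb) h1) h2

/-- **The relation on the steps** `Λ_k[𝔪ⁱ⁺¹] / Λ_k[𝔪ⁱ]` for inertia elements. -/
theorem hrel_step (hM : HeckeModule Sg (Ideal.span {(p : ℤ_[p])}) Tl
      (Tp.galoisHom (p := p) (J := J) GQ) (eps p) θΛ)
    (ρ : GaloisRepAdic T) (π : 𝕋 →+* T) (hcp : FrobCharpolyVia ρ Sg Tl π) (hdens : Density Sg)
    (ι : ℤ_[p] →+* T) (hdet : ∀ g : GQ, LinearMap.det (ρ.ρ g) = Cyclotomic.cycChar p ι g)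
    (hpT : (p : T) ∈ maximalIdeal T)
    (hres : (GaloisRepAdic.ofResidualGaloisRep ρ.residual).IsOrdinaryAt p)
    {A : ValuationSubring Qbar} (hA : A.LiesOverPrime p) (k i : ℕ) {g : GQ}
    (hg : g ∈ A.inertiaSubgroupIn ℚ) {x : Lk p J k}
    (hx : x ∈ tors (thetaK θΛ k) (Ideal.comap π (maximalIdeal T)) (i + 1)) :
    rk p J k g x + eps p g • rk p J k g⁻¹ x - (1 + eps p g) • x ∈
      tors (thetaK θΛ k) (Ideal.comap π (maximalIdeal T)) i := by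
  obtain ⟨b, hb1, hb2⟩ := relK hM ρ π hcp hdens k g
  obtain ⟨n, w, hn⟩ := exists_int_eps (p := p) g
  have hb𝔪 := approx_sub_mem ρ π ι hdet hpT hres hA hg hb2 hn
  have hp𝔪 : (p : 𝕋) ∈ Ideal.comap π (maximalIdeal T) := by
    rw [Ideal.mem_comap, map_natCast]
    exact hpT
  have h1 := LinearMap.congr_fun hb1 x
  rw [LinearMap.add_apply, LinearMap.smul_apply] at h1
  have h2 : thetaK θΛ k b x = thetaK θΛ k (b - (1 + (n : 𝕋))) x + (1 + (n : ℤ_[p])) • x := by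
    rw [map_sub, map_add, map_one, map_intCast, LinearMap.sub_apply, LinearMap.add_apply,
      Module.End.one_apply, Module.End.intCast_apply, add_smul, one_smul,
      Int.cast_smul_eq_zsmul]
    abel
  have h3 : thetaK θΛ k (p : 𝕋) x = (p : ℤ_[p]) • x := by
    rw [map_natCast, Module.End.natCast_apply, Nat.cast_smul_eq_nsmul]
  have e : rk p J k g x + eps p g • rk p J k g⁻¹ x - (1 + eps p g) • x =
      thetaK θΛ k (b - (1 + (n : 𝕋))) x + (-w) • thetaK θΛ k (p : 𝕋) x := by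
    rw [h1, h2, h3]
    have hn' : (n : ℤ_[p]) = eps p g - (p : ℤ_[p]) * w := by rw [← hn]; ring
    rw [hn']
    module
  rw [e]
  exact Submodule.add_mem _ (apply_mem_tors _ _ hb𝔪 hx)
    (Submodule.smul_mem _ _ (apply_mem_tors _ _ hp𝔪 hx))

/-- **PLUG H8: (KP-id) on `Λ_k[𝔪ᵇ]` from SEAM Ω.**  `U`, `hU1`, `hU2`, `hU3` are the three clauses of
the chief's `exists_inertiaFrame` (the third at the level `k` only). -/
theorem kp_level_of_omega (hM : HeckeModule Sg (Ideal.span {(p : ℤ_[p])}) Tl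
      (Tp.galoisHom (p := p) (J := J) GQ) (eps p) θΛ)
    (hcommAll : ∀ (t : 𝕋) (g : GQ), Commute (θΛ t) (Tp.galoisHom (p := p) (J := J) GQ g))
    (ρ : GaloisRepAdic T) (π : 𝕋 →+* T) (hcp : FrobCharpolyVia ρ Sg Tl π) (hdens : Density Sg)
    (ι : ℤ_[p] →+* T) (hdet : ∀ g : GQ, LinearMap.det (ρ.ρ g) = Cyclotomic.cycChar p ι g)
    (hpT : (p : T) ∈ maximalIdeal T)
    (hres : (GaloisRepAdic.ofResidualGaloisRep ρ.residual).IsOrdinaryAt p)
    (hp2 : p ≠ 2) {A : ValuationSubring Qbar} (hA : A.LiesOverPrime p) (k : ℕ)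
    (hfin : {y : J | p ^ k • y = 0}.Finite) (U : AddSubgroup J)
    (hU1 : ∀ τ ∈ A.inertiaSubgroupIn ℚ, ∀ z ∈ U, τ • z ∈ U)
    (hU2 : ∀ y : J, p ^ k • y = 0 → ∀ τ ∈ A.inertiaSubgroupIn ℚ, τ • y - y ∈ U)
    (hU3 : ∀ B : AddSubgroup J, (∀ z ∈ B, z ∈ U ∧ p ^ k • z = 0) →
      Reach (fun (τ : ↥(A.inertiaSubgroupIn ℚ)) (z : J) => (τ : GQ) • z) p B →
      ∀ τ : ↥(A.inertiaSubgroupIn ℚ), ∀ z ∈ B,
        (τ : GQ) • z = Fermat.Agent.S15.P.CycAct.cycExp p k (τ : GQ) • z)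
    (b : ℕ) {y : Lk p J k}
    (hy : y ∈ tors (thetaK θΛ k) (Ideal.comap π (maximalIdeal T)) b)
    {σ τ : GQ} (hσ : σ ∈ A.inertiaSubgroupIn ℚ) (hτ : τ ∈ A.inertiaSubgroupIn ℚ) :
    rk p J k τ (rk p J k σ y - y) =
      Fermat.Agent.S15.P.CycAct.cycExp p k τ • (rk p J k σ y - y) := by
  have hp : p.Prime := Fact.out
  have : Finite (Lk p J k) := finite_Lk p J k hfin
  obtain ⟨τ₀, hτ₀, hu⟩ :=
    Fermat.Agent.S33.Alg.OrdOfKP.exists_mem_inertia_isUnit p hp2 (RingHom.id ℤ_[p]) hA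
  obtain ⟨u, hu'⟩ := hu.exists_left_inv
  have hp𝔪 : (p : 𝕋) ∈ Ideal.comap π (maximalIdeal T) := by
    rw [Ideal.mem_comap, map_natCast]
    exact hpT
  refine kp_on_tors (r := rk p J k) (ε := eps p) (θ := thetaK θΛ k)
    (Ideal.comap π (maximalIdeal T)) (A.inertiaSubgroupIn ℚ) (commute_thetaK_rk hcommAll k)
    (fun i g hg x hx => hrel_step hM ρ π hcp hdens ι hdet hpT hres hA k i hg hx) hτ₀ hu' hp hp𝔪
    (exists_int_smul p J k) ((U.comap (coordQ p J k))) ?_ ?_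
    (Fermat.Agent.S15.P.CycAct.cycExp p k) ?_ b hy hσ hτ
  · intro τ hτ s hs
    rw [AddSubgroup.mem_comap, coordQ_rk]
    exact hU1 τ hτ _ hs
  · intro σ hσ x
    rw [AddSubgroup.mem_comap, map_sub, coordQ_rk]
    exact hU2 _ (pow_nsmul_coordQ p J k x) σ hσ
  · intro B hBS hB τ hτ z hz
    have hR : Reach (fun (τ : ↥(A.inertiaSubgroupIn ℚ)) (z : J) => (τ : GQ) • z) p
        (B.map (coordQ p J k)) :=
      reach_map (actM := fun τ : ↥(A.inertiaSubgroupIn ℚ) =>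
          ⇑(actOn (rk p J k) (A.inertiaSubgroupIn ℚ) τ))
        (actP := fun (τ : ↥(A.inertiaSubgroupIn ℚ)) (z : J) => (τ : GQ) • z) hp (coordQ p J k)
        (fun τ m => coordQ_rk p J k (τ : GQ) m) hB
    have h := hU3 (B.map (coordQ p J k)) (fun z hz => by
      obtain ⟨m, hm, rfl⟩ := hz
      exact ⟨hBS hm, pow_nsmul_coordQ p J k m⟩) hR ⟨τ, hτ⟩ (coordQ p J k z) ⟨z, hz, rfl⟩
    apply coordQ_injective p J k
    rw [coordQ_rk, map_nsmul]
    exact h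

theorem apply_pow_mul_mem (k : ℕ) (t : 𝕋) (v : Tp p J) :
    θΛ ((p : 𝕋) ^ k * t) v ∈
      (Ideal.span {(p : ℤ_[p])} ^ k) • (⊤ : Submodule ℤ_[p] (Tp p J)) := by
  have key : ∀ (k : ℕ) (w : Tp p J),
      ((p : Module.End ℤ_[p] (Tp p J)) ^ k) w = ((p : ℤ_[p]) ^ k) • w := by
    intro k
    induction k with
    | zero =>
      intro w
      rw [pow_zero, pow_zero, Module.End.one_apply, one_smul]
    | succ k ih =>
      intro w
      rw [pow_succ, pow_succ, Module.End.mul_apply, ih, Module.End.natCast_apply, mul_smul,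
        Nat.cast_smul_eq_nsmul]
  have h2 : θΛ ((p : 𝕋) ^ k * t) v = ((p : ℤ_[p]) ^ k) • θΛ t v := by
    rw [map_mul, map_pow, map_natCast, Module.End.mul_apply]
    exact key k _
  rw [h2]
  have h3 : (p : ℤ_[p]) ^ k ∈ Ideal.span {(p : ℤ_[p])} ^ k :=
    Ideal.pow_mem_pow (Ideal.mem_span_singleton_self _) k
  exact Submodule.smul_mem_smul h3 Submodule.mem_top

/-- The range of `θ(h)ᵏ` on `Λ_k` is killed by `𝔪^(j k)` when `h 𝔪ʲ ⊆ p 𝕋`. -/
theorem mk_pow_apply_mem_tors (𝔪 : Ideal 𝕋) {h : 𝕋} {j : ℕ}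
    (hj : ∀ s ∈ 𝔪 ^ j, h * s ∈ Ideal.span {(p : 𝕋)}) (k : ℕ) (v : Tp p J) :
    Submodule.Quotient.mk (p := Nk p J k) (((θΛ h) ^ k : Module.End ℤ_[p] (Tp p J)) v) ∈
      tors (thetaK θΛ k) 𝔪 (j * k) := by
  intro s hs
  have h1 := Fermat.Agent.S33.KP.CutElt.pow_mul_mem hj k hs
  rw [Ideal.mem_span_singleton'] at h1
  obtain ⟨t, ht⟩ := h1
  have h3 : θΛ s (((θΛ h) ^ k : Module.End ℤ_[p] (Tp p J)) v) = θΛ ((p : 𝕋) ^ k * t) v := by
    rw [← Module.End.mul_apply, ← map_pow, ← map_mul, mul_comm s, ← ht, mul_comm t]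
  rw [thetaK_mk, h3, Submodule.Quotient.mk_eq_zero]
  exact apply_pow_mul_mem k t v

/-- **From the level to the Tate module**: the literal of the localised transfer
(`Alg/KPOfSmall.kp_of_transfer`, `hlev` with `Sm k x := ∃ a, ∀ v, x ((θ h) ^ a v) ∈ pᵏ Λ`). -/
theorem kp_tate_of_level (𝔪 : Ideal 𝕋) {h : 𝕋} {j : ℕ}
    (hj : ∀ s ∈ 𝔪 ^ j, h * s ∈ Ideal.span {(p : 𝕋)}) (k : ℕ) (e : ℕ) {σ τ : GQ}
    (hlev : ∀ y ∈ tors (thetaK θΛ k) 𝔪 (j * k),
      rk p J k τ (rk p J k σ y - y) = e • (rk p J k σ y - y))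
    (v : Tp p J) :
    ((Tp.galoisHom (p := p) (J := J) GQ τ - ((e : ℕ) : ℤ) • (1 : Module.End ℤ_[p] (Tp p J))) *
        (Tp.galoisHom (p := p) (J := J) GQ σ - 1))
        (((θΛ h) ^ k : Module.End ℤ_[p] (Tp p J)) v) ∈
      (Ideal.span {(p : ℤ_[p])} ^ k) • (⊤ : Submodule ℤ_[p] (Tp p J)) := by
  set w : Tp p J := ((θΛ h) ^ k : Module.End ℤ_[p] (Tp p J)) v with hw
  have h1 := hlev _ (mk_pow_apply_mem_tors (θΛ := θΛ) 𝔪 hj k v)
  rw [← hw, rk_mk, ← Submodule.Quotient.mk_sub, rk_mk, ← Submodule.Quotient.mk_smul,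
    Submodule.Quotient.eq] at h1
  have e1 : ((Tp.galoisHom (p := p) (J := J) GQ τ -
        ((e : ℕ) : ℤ) • (1 : Module.End ℤ_[p] (Tp p J))) *
      (Tp.galoisHom (p := p) (J := J) GQ σ - 1)) w =
      Tp.galoisHom GQ τ (Tp.galoisHom GQ σ w - w) - e • (Tp.galoisHom GQ σ w - w) := by
    rw [Module.End.mul_apply, LinearMap.sub_apply, LinearMap.sub_apply, LinearMap.smul_apply,
      Module.End.one_apply, Module.End.one_apply, natCast_zsmul]
  rw [e1]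
  exact h1

/-- `𝕋 / p` is finite when `θ` is `p`-adically faithful and the `pᵏ`-torsion of `J` is finite. -/
theorem finite_quotient_of_hinj (hfin : ∀ k : ℕ, {y : J | p ^ k • y = 0}.Finite)
    (hinj : ∃ n' : ℕ, ∀ t : 𝕋,
      (∀ v : Tp p J, θΛ t v ∈ (Ideal.span {(p : ℤ_[p])} ^ n') • (⊤ : Submodule ℤ_[p] (Tp p J))) →
        t ∈ Ideal.span {(p : 𝕋)}) :
    Finite (𝕋 ⧸ Ideal.span {(p : 𝕋)}) := by
  obtain ⟨n', hn'⟩ := hinj
  have : Finite (Lk p J n') := finite_Lk p J n' (hfin n')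
  have hE : Finite (Module.End ℤ_[p] (Lk p J n')) := DFunLike.finite _
  have hker : RingHom.ker (thetaK θΛ n') ≤ Ideal.span {(p : 𝕋)} := by
    intro t ht
    refine hn' t fun v => ?_
    have h1 := LinearMap.congr_fun ((RingHom.mem_ker).mp ht) (Submodule.Quotient.mk v)
    rw [thetaK_mk, LinearMap.zero_apply, Submodule.Quotient.mk_eq_zero] at h1
    exact h1
  have h1 : Finite (𝕋 ⧸ RingHom.ker (thetaK θΛ n')) :=
    Finite.of_injective _ (RingHom.kerLift_injective (thetaK θΛ n'))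
  exact Finite.of_surjective _ (Ideal.Quotient.factor_surjective hker)

/-- **(R2), route H8, on the Tate module**: there is `h ∈ 𝕋` with `π h` a unit such that for every
`k`, every `A ∣ p` and all `σ τ` in the inertia group of `A`,
`((τ - cycExp k τ) (σ - 1)) (θ(h)ᵏ v) ∈ pᵏ T_p J` for all `v`.  `hΩ` is SEAM Ω for every `A ∣ p`. -/
theorem exists_cut_kp (hM : HeckeModule Sg (Ideal.span {(p : ℤ_[p])}) Tl
      (Tp.galoisHom (p := p) (J := J) GQ) (eps p) θΛ)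
    (hcommAll : ∀ (t : 𝕋) (g : GQ), Commute (θΛ t) (Tp.galoisHom (p := p) (J := J) GQ g))
    (hinj : ∃ n' : ℕ, ∀ t : 𝕋,
      (∀ v : Tp p J, θΛ t v ∈ (Ideal.span {(p : ℤ_[p])} ^ n') • (⊤ : Submodule ℤ_[p] (Tp p J))) →
        t ∈ Ideal.span {(p : 𝕋)})
    (ρ : GaloisRepAdic T) (π : 𝕋 →+* T) (hcp : FrobCharpolyVia ρ Sg Tl π) (hdens : Density Sg)
    (ι : ℤ_[p] →+* T) (hdet : ∀ g : GQ, LinearMap.det (ρ.ρ g) = Cyclotomic.cycChar p ι g)
    (hpT : (p : T) ∈ maximalIdeal T)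
    (hres : (GaloisRepAdic.ofResidualGaloisRep ρ.residual).IsOrdinaryAt p)
    (hp2 : p ≠ 2) (hfin : ∀ k : ℕ, {y : J | p ^ k • y = 0}.Finite)
    (hΩ : ∀ A : ValuationSubring Qbar, A.LiesOverPrime p → ∃ U : AddSubgroup J,
      (∀ τ ∈ A.inertiaSubgroupIn ℚ, ∀ z ∈ U, τ • z ∈ U) ∧
      (∀ (k : ℕ) (y : J), p ^ k • y = 0 → ∀ τ ∈ A.inertiaSubgroupIn ℚ, τ • y - y ∈ U) ∧
      ∀ (k : ℕ) (B : AddSubgroup J), (∀ z ∈ B, z ∈ U ∧ p ^ k • z = 0) →
        Reach (fun (τ : ↥(A.inertiaSubgroupIn ℚ)) (z : J) => (τ : GQ) • z) p B →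
        ∀ τ : ↥(A.inertiaSubgroupIn ℚ), ∀ z ∈ B,
          (τ : GQ) • z = Fermat.Agent.S15.P.CycAct.cycExp p k (τ : GQ) • z) :
    ∃ h : 𝕋, IsUnit (π h) ∧ ∀ (k : ℕ) (A : ValuationSubring Qbar), A.LiesOverPrime p →
      ∀ σ ∈ A.inertiaSubgroupIn ℚ, ∀ τ ∈ A.inertiaSubgroupIn ℚ, ∀ v : Tp p J,
        ((Tp.galoisHom (p := p) (J := J) GQ τ -
            ((Fermat.Agent.S15.P.CycAct.cycExp p k τ : ℕ) : ℤ) •
              (1 : Module.End ℤ_[p] (Tp p J))) *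
          (Tp.galoisHom (p := p) (J := J) GQ σ - 1))
          (((θΛ h) ^ k : Module.End ℤ_[p] (Tp p J)) v) ∈
        (Ideal.span {(p : ℤ_[p])} ^ k) • (⊤ : Submodule ℤ_[p] (Tp p J)) := by
  have hp𝔪 : (p : 𝕋) ∈ Ideal.comap π (maximalIdeal T) := by
    rw [Ideal.mem_comap, map_natCast]
    exact hpT
  have := finite_quotient_of_hinj (θΛ := θΛ) hfin hinj
  obtain ⟨h, hh, j, hj⟩ :=
    Fermat.Agent.S33.KP.CutElt.exists_cut p (Ideal.comap π (maximalIdeal T)) hp𝔪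
  refine ⟨h, ?_, fun k A hA σ hσ τ hτ v => ?_⟩
  · -- `π h ≡ 1` modulo the maximal ideal
    rw [Ideal.mem_comap, map_sub, map_one] at hh
    by_contra hu
    have h1 : π h ∈ maximalIdeal T := (mem_maximalIdeal _).mpr (mem_nonunits_iff.mpr hu)
    have h2 : (1 : T) ∈ maximalIdeal T := by
      have : (1 : T) = π h - (π h - 1) := by ring
      rw [this]
      exact Ideal.sub_mem _ h1 hh
    exact (Ideal.ne_top_iff_one _).mp (maximalIdeal.isMaximal T).ne_top h2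
  · obtain ⟨U, hU1, hU2, hU3⟩ := hΩ A hA
    exact kp_tate_of_level (θΛ := θΛ) (Ideal.comap π (maximalIdeal T)) hj k _
      (fun y hy => kp_level_of_omega hM hcommAll ρ π hcp hdens ι hdet hpT hres hp2 hA k
        (hfin k) U hU1 (hU2 k) (hU3 k) (j * k) hy hσ hτ) v

end Fermat.Agent.S33.KP.Level
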