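import Fermat.Agent.S32.Level
import Fermat.Agent.S33.Alg.TransferLoc

/-!
# PROJECT N (S33), link (R3), second half: the localised transfer for a Hecke-Galois datum (helper1)

Frame: the binders of the frozen statement S33 (`H : HeckeGaloisRepDatum N ↑S 𝒪 θ T`, `p` odd, no
hypothesis on `p ∣ N`), together with ANY Hecke action `θΛ` on `Λ = T_p J₀(N)` having the three
properties of `S32/TateHecke.HasTheta` (the caller obtains it from `S32/TateHecke.hasTheta`), and ONE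
Hecke element `h` with `H.π h` a unit of `T`.

* `exists_level_loc` : `S32/Level.exists_level` where the group-ring element only has to kill the
  RANGE of `(θΛ h) ^ a` modulo `pᵏ`;
* `eq_zero_of_forall_mem` : an endomorphism of `H.ρ.V` with values in `𝔪ⁿ V` for every `n` is zero;
* `kpid_of_levels` : **(KP-id) from the finite levels.**  If for every `k` there are `a` and an integer
  `e ≡ cyc τ mod pᵏ` with `(r τ - e)(r σ - 1) (θΛ h)ᵃ Λ ⊆ pᵏ Λ`, then
  `(H.ρ.ρ τ - cycChar p ι τ • 1) * (H.ρ.ρ σ - 1) = 0` (the display `hKP` of `Alg/OrdOfKP`,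
  `Alg/TopOfKP`), for every `ι : ℤ_[p] →+* T`;
* `natCast_val_toZModPow_sub_mem` : the integer `e := (x mod pᵏ).val` satisfies the congruence.
-/

set_option autoImplicit false
set_option linter.unusedSectionVars false
set_option linter.style.haveILetI false

namespace Fermat.Agent.S33.KP.LevelLoc

open Polynomial IsLocalRing CuspForm ModularCurve
open Fermat.Agent.S31.Core
open Fermat.Agent.S30.Algebra
open Fermat.Agent.S30.Padic.TateModule

/-- the canonical integer representative of `x mod pᵏ` is congruent to `x` -/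
theorem natCast_val_toZModPow_sub_mem (p : ℕ) [Fact p.Prime] (k : ℕ) (x : ℤ_[p]) :
    (((PadicInt.toZModPow k x).val : ℤ) : ℤ_[p]) - x ∈ Ideal.span {(p : ℤ_[p]) ^ k} := by
  rw [← PadicInt.ker_toZModPow, RingHom.mem_ker, map_sub, map_intCast, Int.cast_natCast,
    ZMod.natCast_zmod_val, sub_self]

section Datum

variable {p : ℕ} [Fact p.Prime] {N : ℕ} [NeZero N] {S : Finset ℕ}
  {𝒪 : Type} [CommRing 𝒪] [IsDomain 𝒪] [IsDiscreteValuationRing 𝒪]
  [IsAdicComplete (IsLocalRing.maximalIdeal 𝒪) 𝒪]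
  {θ : CuspForm.heckeAlgebra N 2 (↑S : Set ℕ) →+* IsLocalRing.ResidueField 𝒪}
  {T : Type} [CommRing T] [IsLocalRing T] [IsNoetherianRing T]
  [IsAdicComplete (IsLocalRing.maximalIdeal T) T] [Algebra 𝒪 T] [IsLocalHom (algebraMap 𝒪 T)]
  [Module.Finite 𝒪 T] [Module.Free 𝒪 T]

/-- **Localised transfer for a Hecke-Galois datum.**  `θΛ` is any Hecke action on `T_p J₀(N)` with
the properties of `S32/TateHecke.HasTheta`; `h` is a Hecke element with `H.π h` a unit. -/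
theorem exists_level_loc (hp2 : p ≠ 2) (hp𝒪 : (p : 𝒪) ∈ IsLocalRing.maximalIdeal 𝒪)
    (hpS : p ∈ S) (hNS : ∀ q : ℕ, q.Prime → q ∣ N → q ∈ S)
    (H : CuspForm.HeckeGaloisRepDatum N (↑S : Set ℕ) 𝒪 θ T)
    (θΛ : heckeAlgebra N 2 (↑S : Set ℕ) →+* Module.End ℤ_[p] (Tp p (JZero N)))
    (hM : HeckeModule S (Ideal.span {(p : ℤ_[p])}) (Fermat.Agent.S31.Assembly.Tl N S)
      (Tp.galoisHom (p := p) (J := JZero N) GQ) (eps p) θΛ)
    (hcommAll : ∀ (t : heckeAlgebra N 2 (↑S : Set ℕ)) (g : GQ),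
      Commute (θΛ t) (Tp.galoisHom (p := p) (J := JZero N) GQ g))
    (hinj : ∀ n : ℕ, ∃ n' : ℕ, ∀ t : heckeAlgebra N 2 (↑S : Set ℕ),
      (∀ v : Tp p (JZero N), θΛ t v ∈
        (Ideal.span {(p : ℤ_[p])} ^ n') • (⊤ : Submodule ℤ_[p] (Tp p (JZero N)))) →
        t ∈ Ideal.span {(p : heckeAlgebra N 2 (↑S : Set ℕ)) ^ n})
    (h : heckeAlgebra N 2 (↑S : Set ℕ)) (hh : IsUnit (H.π h)) (n : ℕ) :
    ∃ k : ℕ, ∀ {ι : Type} (s : Finset ι) (m : ι → ℤ) (g : ι → GQ) (a : ℕ),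
      (∀ v : Tp p (JZero N),
        (∑ i ∈ s, m i • Tp.galoisHom (p := p) (J := JZero N) GQ (g i)) (((θΛ h) ^ a) v) ∈
          (Ideal.span {(p : ℤ_[p])} ^ k) • (⊤ : Submodule ℤ_[p] (Tp p (JZero N)))) →
      ∀ v : H.ρ.V, (∑ i ∈ s, m i • H.ρ.ρ (g i)) v ∈
        (maximalIdeal T ^ n) • (⊤ : Submodule T H.ρ.V) := by
  have hp : p.Prime := Fact.out
  have hodd : Odd p := hp.odd_of_ne_two hp2
  have hnotdvd : ∀ ℓ : ℕ, ℓ.Prime → ℓ ∉ S → ¬ ℓ ∣ N := fun ℓ hℓ hℓS h => hℓS (hNS ℓ hℓ h)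
  have hcoe : ∀ ℓ : ℕ, ℓ ∉ S → ℓ ∉ (↑S : Set ℕ) := fun ℓ h => by rwa [Finset.mem_coe]
  have hpT : (p : T) ∈ maximalIdeal T := Fermat.Agent.S32.Level.natCast_mem_maximalIdeal hp𝒪
  have hpZ : (p : ℤ_[p]) ∈ maximalIdeal ℤ_[p] := by
    rw [PadicInt.maximalIdeal_eq_span_p]
    exact Ideal.subset_span (Set.mem_singleton _)
  have hcp : FrobCharpolyVia H.ρ S (Fermat.Agent.S31.Assembly.Tl N S) H.π := by
    intro ℓ hℓ hℓS A hA τ hτ
    rw [Fermat.Agent.S31.Assembly.Tl_eq hℓ (hnotdvd ℓ hℓ hℓS) (hcoe ℓ hℓS)]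
    exact H.charpoly_frob ℓ hℓ (hnotdvd ℓ hℓ hℓS) (hcoe ℓ hℓS) A hA τ hτ
  have hc1 : complexConjugation ≠ 1 := Fermat.Agent.S58.Compare.complexConjugation_ne_one
  have hcyc := Fermat.Agent.S58.Compare.cyc_involution p hp2 complexConjugation
    complexConjugation_mul_self hc1
  have hεc : eps p complexConjugation = -1 := by
    rw [eps, Cyclotomic.cycChar_apply, hcyc]
    rfl
  obtain ⟨ι⟩ := Cyclotomic.exists_ringHom p (maximalIdeal T) hpT
  have hdetc : LinearMap.det (H.ρ.ρ complexConjugation) = -1 := by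
    rw [Fermat.Agent.S35.DetCyc.det_eq_cycChar_of_frobCharpoly p
      Fermat.Agent.S35.DetCyc.separated hpT ι S hpS
      (fun ℓ => H.π (Fermat.Agent.S31.Assembly.Tl N S ℓ)) H.ρ hcp complexConjugation,
      Cyclotomic.cycChar_apply, hcyc, map_neg, map_one]
  exact Fermat.Agent.S33.Alg.TransferLoc.rho_sum_mem_loc hM hcommAll H.ρ H.residual_absIrr H.π hcp
    (fun L _ s => Fermat.Agent.S30.Density.Bridge.frobenius_density_final L s S)
    (hinj_of_span p H.π hpT hinj) (Fermat.Agent.S32.Level.isUnit_two_of_odd hodd hpZ)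
    (Fermat.Agent.S32.Level.isUnit_two_of_odd hodd hpT)
    complexConjugation complexConjugation_mul_self hεc hdetc h hh n

/-- An endomorphism of `H.ρ.V` with values in `𝔪ⁿ V` for every `n` is zero. -/
theorem eq_zero_of_forall_mem (H : CuspForm.HeckeGaloisRepDatum N (↑S : Set ℕ) 𝒪 θ T)
    (X : Module.End T H.ρ.V)
    (hX : ∀ (n : ℕ) (v : H.ρ.V), X v ∈ (maximalIdeal T ^ n) • (⊤ : Submodule T H.ρ.V)) :
    X = 0 := by
  apply LinearMap.ext
  intro v
  rw [LinearMap.zero_apply]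
  have hH : IsHausdorff (maximalIdeal T) H.ρ.V := inferInstance
  apply hH.haus'
  intro n
  rw [SModEq.zero]
  exact hX n v

/-- **(KP-id)_T from the finite levels.**  `σ τ` are arbitrary elements of `G_ℚ` (the consumer takes
them in an inertia group at `p`).  If for every `k` there are an exponent `a` and an integer
`e ≡ cyc τ mod pᵏ` such that `(r τ - e)(r σ - 1)` maps the range of `(θΛ h) ^ a` into `pᵏ Λ`, then
`(H.ρ.ρ τ - χ τ)(H.ρ.ρ σ - 1) = 0`, `χ = cycChar p ι`, for every `ι : ℤ_[p] →+* T`. -/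
theorem kpid_of_levels (hp2 : p ≠ 2) (hp𝒪 : (p : 𝒪) ∈ IsLocalRing.maximalIdeal 𝒪)
    (hpS : p ∈ S) (hNS : ∀ q : ℕ, q.Prime → q ∣ N → q ∈ S)
    (H : CuspForm.HeckeGaloisRepDatum N (↑S : Set ℕ) 𝒪 θ T)
    (θΛ : heckeAlgebra N 2 (↑S : Set ℕ) →+* Module.End ℤ_[p] (Tp p (JZero N)))
    (hM : HeckeModule S (Ideal.span {(p : ℤ_[p])}) (Fermat.Agent.S31.Assembly.Tl N S)
      (Tp.galoisHom (p := p) (J := JZero N) GQ) (eps p) θΛ)
    (hcommAll : ∀ (t : heckeAlgebra N 2 (↑S : Set ℕ)) (g : GQ),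
      Commute (θΛ t) (Tp.galoisHom (p := p) (J := JZero N) GQ g))
    (hinj : ∀ n : ℕ, ∃ n' : ℕ, ∀ t : heckeAlgebra N 2 (↑S : Set ℕ),
      (∀ v : Tp p (JZero N), θΛ t v ∈
        (Ideal.span {(p : ℤ_[p])} ^ n') • (⊤ : Submodule ℤ_[p] (Tp p (JZero N)))) →
        t ∈ Ideal.span {(p : heckeAlgebra N 2 (↑S : Set ℕ)) ^ n})
    (h : heckeAlgebra N 2 (↑S : Set ℕ)) (hh : IsUnit (H.π h))
    (ι : ℤ_[p] →+* T) (σ τ : GQ)
    (hlev : ∀ k : ℕ, ∃ (a : ℕ) (e : ℤ),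
      ((e : ℤ_[p]) - ((Cyclotomic.cyc p τ : ℤ_[p]ˣ) : ℤ_[p])) ∈ Ideal.span {(p : ℤ_[p]) ^ k} ∧
      ∀ v : Tp p (JZero N),
        ((Tp.galoisHom (p := p) (J := JZero N) GQ τ - e • (1 : Module.End ℤ_[p] (Tp p (JZero N)))) *
          (Tp.galoisHom (p := p) (J := JZero N) GQ σ - 1)) (((θΛ h) ^ a) v) ∈
          (Ideal.span {(p : ℤ_[p])} ^ k) • (⊤ : Submodule ℤ_[p] (Tp p (JZero N)))) :
    (H.ρ.ρ τ - Cyclotomic.cycChar p ι τ • (1 : Module.End T H.ρ.V)) * (H.ρ.ρ σ - 1) = 0 := by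
  have hpT : (p : T) ∈ maximalIdeal T := Fermat.Agent.S32.Level.natCast_mem_maximalIdeal hp𝒪
  apply eq_zero_of_forall_mem H
  intro n v
  obtain ⟨k₀, hk₀⟩ := exists_level_loc hp2 hp𝒪 hpS hNS H θΛ hM hcommAll hinj h hh n
  obtain ⟨a, e, he, hv⟩ := hlev (max k₀ n)
  -- the group-ring element `τσ - τ - eσ + e`
  let m : Fin 4 → ℤ := ![1, -1, -e, e]
  let g : Fin 4 → GQ := ![τ * σ, τ, σ, 1]
  have hexp : ∀ {E : Type} [Ring E] (f : GQ →* E),
      ∑ i : Fin 4, m i • f (g i) = (f τ - e • (1 : E)) * (f σ - 1) := by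
    intro E _ f
    simp only [Fin.sum_univ_four, m, g, Matrix.cons_val_zero, Matrix.cons_val_one,
      Matrix.cons_val_two, Matrix.cons_val_three, Matrix.head_cons, Matrix.tail_cons, map_mul,
      map_one, one_smul, neg_smul]
    noncomm_ring
  have h1 := hk₀ Finset.univ m g a (fun w => by
    rw [hexp]
    exact Submodule.smul_mono_left (Ideal.pow_le_pow_right (le_max_left k₀ n)) (hv w)) v
  rw [hexp] at h1
  -- the error term `(e - χ τ)(ρ σ - 1) v`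
  have h2 : (e : T) - Cyclotomic.cycChar p ι τ ∈ maximalIdeal T ^ n := by
    obtain ⟨z, hz⟩ := Ideal.mem_span_singleton'.1 he
    have h3 : (e : T) - Cyclotomic.cycChar p ι τ = ι z * (p : T) ^ (max k₀ n) := by
      rw [Cyclotomic.cycChar_apply, ← map_intCast ι, ← map_sub, ← hz, map_mul, map_pow,
        map_natCast]
    rw [h3]
    exact Ideal.mul_mem_left _ _
      (Ideal.pow_le_pow_right (le_max_right k₀ n) (Ideal.pow_mem_pow hpT _))
  have h4 : ((H.ρ.ρ τ - Cyclotomic.cycChar p ι τ • (1 : Module.End T H.ρ.V)) * (H.ρ.ρ σ - 1)) v =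
      ((H.ρ.ρ τ - e • (1 : Module.End T H.ρ.V)) * (H.ρ.ρ σ - 1)) v +
        ((e : T) - Cyclotomic.cycChar p ι τ) • ((H.ρ.ρ σ - 1) v) := by
    simp only [Module.End.mul_apply, LinearMap.sub_apply, LinearMap.smul_apply,
      Module.End.one_apply, sub_smul, ← Int.cast_smul_eq_zsmul T e]
    abel
  rw [h4]
  exact Submodule.add_mem _ h1 (Submodule.smul_mem_smul h2 Submodule.mem_top)

end Datum

end Fermat.Agent.S33.KP.LevelLoc
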