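/-
PROJECT N (S33), shared leaf (1) (helper3): THE `1`-UNIT CLASSES OF `J₀(M q)` AT A PLACE `A ∣ q`,
`q ∤ M`, AND THE FACT THAT INERTIA AT `q` MOVES EVERY `n`-TORSION CLASS BY A `1`-UNIT CLASS, FOR
EVERY `n ≠ 0`, IN PARTICULAR FOR `n = q ^ k`.

* abstract part (`K`, `F` arbitrary, `P : F → Prop` a multiplicative predicate): `kummerClasses hP n`,
  the subgroup of `Pic0 K F` of the classes `[D]` with `n D = div (h ^ n u)`, `P u`
  (`exists_strict`: with principal divisors one may take `h = 1`, i.e. `n D = div u`);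
  `smul_sub_mem_of_decomposition`: the abstract form of the leaf;
* the instance at `E = ℚ̄(X₀(M q))`: `P u := u ≡ 1` modulo the maximal ideals of the two Gauss
  valuation rings `V1X0`, `V2X0` of main's `S34/Z1X0`:
  `oneUnit hA hqM n ≤ J₀(M q)`, `smul_sub_mem_oneUnit` (= `(Z1)` of S34, which has NO hypothesis
  `n` prime to `q`), `smul_mem_oneUnit` (stability under inertia), `nsmul_eq_zero_of_mem_oneUnit`,
  `exists_strict_of_mem_oneUnit`.
-/
import Fermat.Agent.S34.Z1X0
import Fermat.Agent.S18.A.Instances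

set_option autoImplicit false
set_option linter.unusedSectionVars false
set_option linter.style.haveILetI false

noncomputable section

namespace Fermat.Agent.S33.KP.OneUnit

open AlgebraicCurve

/-! ### Abstract part: Kummer classes with a multiplicative side condition -/

section Abstract

variable {K F : Type*} [Field K] [Field F] [Algebra K F]

/-- A multiplicative predicate on `F` (closed under products and inverses, true at `1`). -/
structure IsMulPred (P : F → Prop) : Prop where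
  one : P 1
  mul : ∀ a b : F, P a → P b → P (a * b)
  inv : ∀ a : F, P a → P a⁻¹

theorem IsMulPred.pow {P : F → Prop} (hP : IsMulPred P) {u : F} (hu : P u) (k : ℕ) :
    P (u ^ k) := by
  induction k with
  | zero => rw [pow_zero]; exact hP.one
  | succ k ih => rw [pow_succ]; exact hP.mul _ _ ih hu

/-- The classes `[D]` of degree-zero divisors with `n D = div (h ^ n u)` for some `u` with `P u`
(the class of `u` in `F^× / K^× F^{× n}`, read in `Pic0[n]`). -/
def kummerClasses {P : F → Prop} (hP : IsMulPred P) (n : ℕ) : AddSubgroup (Pic0 K F) where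
  carrier := {y | ∃ (D : Divisor.degZero (K := K) (F := F)) (u h : F), y = Pic0.mk D ∧ u ≠ 0 ∧
    h ≠ 0 ∧ P u ∧ ∀ w : Place K F, n * (D : Divisor K F) w = w.ord u + n * w.ord h}
  zero_mem' := ⟨0, 1, 1, rfl, one_ne_zero, one_ne_zero, hP.one, fun w => by
    rw [w.ord_one]
    simp⟩
  add_mem' := by
    rintro _ _ ⟨D, u, h, rfl, hu, hh, hPu, hD⟩ ⟨D', u', h', rfl, hu', hh', hPu', hD'⟩
    refine ⟨D + D', u * u', h * h', (Pic0.mk_add D D').symm, mul_ne_zero hu hu',
      mul_ne_zero hh hh', hP.mul u u' hPu hPu', fun w => ?_⟩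
    rw [w.ord_mul hu hu', w.ord_mul hh hh', AddSubgroup.coe_add, Finsupp.add_apply, mul_add,
      hD w, hD' w]
    ring
  neg_mem' := by
    rintro _ ⟨D, u, h, rfl, hu, hh, hPu, hD⟩
    refine ⟨-D, u⁻¹, h⁻¹, rfl, inv_ne_zero hu, inv_ne_zero hh, hP.inv u hPu, fun w => ?_⟩
    rw [w.ord_inv, w.ord_inv, AddSubgroup.coe_neg, Finsupp.neg_apply, mul_neg, hD w]
    ring

theorem mem_kummerClasses {P : F → Prop} (hP : IsMulPred P) (n : ℕ) (y : Pic0 K F) :
    y ∈ kummerClasses (K := K) hP n ↔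
      ∃ (D : Divisor.degZero (K := K) (F := F)) (u h : F), y = Pic0.mk D ∧ u ≠ 0 ∧ h ≠ 0 ∧
        P u ∧ ∀ w : Place K F, n * (D : Divisor K F) w = w.ord u + n * w.ord h :=
  Iff.rfl

/-- The strict form is sufficient for membership (`h = 1`). -/
theorem mem_kummerClasses_of_strict {P : F → Prop} (hP : IsMulPred P) {n : ℕ}
    (D : Divisor.degZero (K := K) (F := F)) {u : F} (hu : u ≠ 0) (hPu : P u)
    (hD : ∀ w : Place K F, w.ord u = n * (D : Divisor K F) w) :
    Pic0.mk D ∈ kummerClasses (K := K) hP n :=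
  ⟨D, u, 1, rfl, hu, one_ne_zero, hPu, fun w => by rw [w.ord_one, hD w]; ring⟩

/-- With principal divisors, every Kummer class has a strict representative: `n D = div u`. -/
theorem exists_strict [HasPrincipalDivisors K F] {P : F → Prop} (hP : IsMulPred P) {n : ℕ}
    {y : Pic0 K F} (hy : y ∈ kummerClasses (K := K) hP n) :
    ∃ (D : Divisor.degZero (K := K) (F := F)) (u : F), y = Pic0.mk D ∧ u ≠ 0 ∧ P u ∧
      ∀ w : Place K F, w.ord u = n * (D : Divisor K F) w := by
  obtain ⟨D, u, h, rfl, hu, hh, hPu, hD⟩ := hy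
  obtain ⟨Dh, hDh, hdeg⟩ := HasPrincipalDivisors.exists_divisor (K := K) h hh
  have hmem : Dh ∈ Divisor.degZero (K := K) (F := F) := hdeg
  let Dh' : Divisor.degZero (K := K) (F := F) := ⟨Dh, hmem⟩
  have hzero : Pic0.mk Dh' = 0 :=
    Fermat.Agent.S34.KummerZ.mk_eq_zero_of_isDivOf hh (fun w => hDh w)
  refine ⟨D - Dh', u, ?_, hu, hPu, fun w => ?_⟩
  · have : Pic0.mk (D - Dh') = Pic0.mk D - Pic0.mk Dh' := rfl
    rw [this, hzero, sub_zero]
  · have h1 : ((D - Dh' : Divisor.degZero (K := K) (F := F)) : Divisor K F) w =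
        (D : Divisor K F) w - w.ord h := by
      rw [AddSubgroup.coe_sub, Finsupp.sub_apply]
      show (D : Divisor K F) w - Dh w = _
      rw [hDh w]
    rw [h1, mul_sub, hD w]
    ring

/-- A Kummer class of level `n` is killed by `n`. -/
theorem nsmul_eq_zero_of_mem {P : F → Prop} (hP : IsMulPred P) {n : ℕ} {y : Pic0 K F}
    (hy : y ∈ kummerClasses (K := K) hP n) : n • y = 0 := by
  obtain ⟨D, u, h, rfl, hu, hh, -, hD⟩ := hy
  have h1 : n • Pic0.mk D = Pic0.mk (n • D) := rfl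
  rw [h1]
  refine Fermat.Agent.S34.KummerZ.mk_eq_zero_of_isDivOf
    (f := u * h ^ n) (mul_ne_zero hu (pow_ne_zero _ hh)) (fun w => ?_)
  rw [w.ord_mul hu (pow_ne_zero _ hh), Fermat.Agent.S34.KummerZ.ord_pow, AddSubgroup.coe_nsmul,
    Finsupp.smul_apply, nsmul_eq_mul, hD w]

/-- Monotonicity in the level: a class of level `n` is a class of level `n * m`
(replace `u` by `u ^ m`). -/
theorem kummerClasses_le_mul {P : F → Prop} (hP : IsMulPred P) (n m : ℕ) :
    kummerClasses (K := K) hP n ≤ kummerClasses (K := K) hP (n * m) := by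
  rintro _ ⟨D, u, h, rfl, hu, hh, hPu, hD⟩
  refine ⟨D, u ^ m, h, rfl, pow_ne_zero m hu, hh, hP.pow hPu m, fun w => ?_⟩
  rw [Fermat.Agent.S34.KummerZ.ord_pow]
  push_cast
  have := hD w
  linear_combination (m : ℤ) * this

/-- **The abstract form of the leaf.** Let `g` be a semilinear automorphism such that every
function `f` whose divisor is divisible by `n` satisfies `g f = c h ^ n u f` with `P u`. Then `g`
moves every `n`-torsion class by a Kummer class of level `n` with side condition `P`. -/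
theorem smul_sub_mem_of_decomposition {P : F → Prop} (hP : IsMulPred P) (g : SemilinearAut K F)
    {n : ℕ}
    (h1 : ∀ f : F, Fermat.Agent.S34.KummerZ.Hn (K := K) n f → ∃ (c : K) (h u : F),
      c ≠ 0 ∧ h ≠ 0 ∧ u ≠ 0 ∧ P u ∧ g • f = algebraMap K F c * h ^ n * u * f)
    (y : Pic0 K F) (hy : n • y = 0) :
    g • y - y ∈ kummerClasses (K := K) hP n := by
  have hy' : (n : ℤ) • y = 0 := by rw [natCast_zsmul]; exact hy
  obtain ⟨D, f, rfl, hf, hD⟩ := Fermat.Agent.S34.KummerZ.exists_mk_of_zsmul_eq_zero hy'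
  have hHf : Fermat.Agent.S34.KummerZ.Hn (K := K) n f := ⟨hf, fun w => ⟨_, hD w⟩⟩
  obtain ⟨c, h, u, hc, hh, hu, hPu, hgf⟩ := h1 f hHf
  have hcF : algebraMap K F c ≠ 0 := (map_ne_zero _).mpr hc
  refine ⟨SemilinearAut.degZeroSMulHom g D - D, u, h, ?_, hu, hh, hPu, fun w => ?_⟩
  · rw [SemilinearAut.pic0_smul_mk]
    rfl
  · have e1 : w.ord (g • f) = w.ord (algebraMap K F c * h ^ n * u * f) := by rw [hgf]
    rw [w.ord_mul (mul_ne_zero (mul_ne_zero hcF (pow_ne_zero _ hh)) hu) hf,
      w.ord_mul (mul_ne_zero hcF (pow_ne_zero _ hh)) hu,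
      w.ord_mul hcF (pow_ne_zero _ hh), Fermat.Agent.S34.KummerZ.ord_algebraMap w hc,
      Fermat.Agent.S34.KummerZ.ord_pow, Fermat.Agent.S34.KummerZ.ord_smul_eq, hD, hD] at e1
    rw [AddSubgroup.coe_sub, Finsupp.sub_apply, SemilinearAut.coe_degZeroSMulHom,
      SemilinearAut.divisor_smul_apply]
    linarith

/-- Stability: if `g` preserves `P`, it preserves the Kummer classes of every level. -/
theorem smul_mem_kummerClasses {P : F → Prop} (hP : IsMulPred P) (g : SemilinearAut K F)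
    (hg : ∀ u : F, P u → P (g • u)) {n : ℕ} {y : Pic0 K F}
    (hy : y ∈ kummerClasses (K := K) hP n) : g • y ∈ kummerClasses (K := K) hP n := by
  obtain ⟨D, u, h, rfl, hu, hh, hPu, hD⟩ := hy
  have hgu : g • u ≠ 0 := by
    rw [SemilinearAut.smul_def]
    exact (map_ne_zero _).mpr hu
  have hgh : g • h ≠ 0 := by
    rw [SemilinearAut.smul_def]
    exact (map_ne_zero _).mpr hh
  refine ⟨SemilinearAut.degZeroSMulHom g D, g • u, g • h, SemilinearAut.pic0_smul_mk g D, hgu, hgh,
    hg u hPu, fun w => ?_⟩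
  rw [SemilinearAut.coe_degZeroSMulHom, SemilinearAut.divisor_smul_apply,
    Fermat.Agent.S34.KummerZ.ord_smul_eq, Fermat.Agent.S34.KummerZ.ord_smul_eq]
  exact hD _

end Abstract

/-! ### `1`-units of a valuation ring form a multiplicative predicate -/

section OneUnits

open Fermat.Agent.S34.Z1Abstract

variable {F : Type*} [Field F]

theorem isOneUnit_mul {A : ValuationSubring F} {x y : F} (hx : IsOneUnit A x)
    (hy : IsOneUnit A y) : IsOneUnit A (x * y) := by
  have hvy : A.valuation y = 1 := hy.valuation_eq_one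
  have h1 : A.valuation ((x - 1) * y) < 1 := by
    rw [map_mul, hvy, mul_one]
    exact A.mem_nonunits_iff.mp hx
  have h2 : A.valuation (y - 1) < 1 := A.mem_nonunits_iff.mp hy
  have e : x * y - 1 = (x - 1) * y + (y - 1) := by ring
  show x * y - 1 ∈ A.nonunits
  rw [e, A.mem_nonunits_iff]
  exact lt_of_le_of_lt (A.valuation.map_add _ _) (max_lt h1 h2)

theorem isOneUnit_inv {A : ValuationSubring F} {x : F} (hx : IsOneUnit A x) :
    IsOneUnit A x⁻¹ := by
  have hvx : A.valuation x = 1 := hx.valuation_eq_one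
  have hx0 : x ≠ 0 := hx.ne_zero
  have e : x⁻¹ - 1 = -((x - 1) * x⁻¹) := by
    field_simp
    ring
  show x⁻¹ - 1 ∈ A.nonunits
  rw [e, A.mem_nonunits_iff, Valuation.map_neg, map_mul, map_inv₀, hvx, inv_one, mul_one]
  exact A.mem_nonunits_iff.mp hx

/-- `u ≡ 1` modulo the maximal ideals of two valuation rings is a multiplicative predicate. -/
theorem isMulPred_isOneUnit₂ (A B : ValuationSubring F) :
    IsMulPred (fun u : F => IsOneUnit A u ∧ IsOneUnit B u) where
  one := ⟨isOneUnit_one A, isOneUnit_one B⟩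
  mul := fun _ _ ha hb => ⟨isOneUnit_mul ha.1 hb.1, isOneUnit_mul ha.2 hb.2⟩
  inv := fun _ ha => ⟨isOneUnit_inv ha.1, isOneUnit_inv ha.2⟩

/-- A ring automorphism which moves the elements of `A` by elements of `𝔪_A` and preserves `A`
preserves `1 + 𝔪_A`. -/
theorem isOneUnit_of_sub_mem {A : ValuationSubring F} {u gu : F} (hu : IsOneUnit A u)
    (h : gu - u ∈ A.nonunits) : IsOneUnit A gu := by
  have e : gu - 1 = (gu - u) + (u - 1) := by ring
  show gu - 1 ∈ A.nonunits
  rw [e, A.mem_nonunits_iff]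
  exact lt_of_le_of_lt (A.valuation.map_add _ _)
    (max_lt (A.mem_nonunits_iff.mp h) (A.mem_nonunits_iff.mp hu))

end OneUnits

/-! ### The instance at `E = ℚ̄(X₀(M q))` -/

section X0

open ModularCurve
open Fermat.Agent.S34.Z1X0 Fermat.Agent.S34.Z1Abstract

local notation "Kb" => AlgebraicClosure ℚ

variable {q : ℕ} [hq : Fact q.Prime] {M : ℕ} [NeZero M] {A : ValuationSubring Kb}
variable (hA : A.LiesOverPrime q) (hqM : ¬ q ∣ M) [NeZero q]

/-- `u ≡ 1` modulo the maximal ideals of the two Gauss valuation rings of `ℚ̄(X₀(M q))` over `A`. -/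
def IsOneUnitX0 (u : ↥(modularFunctionFieldBar (M * q))) : Prop :=
  IsOneUnit (V1X0 hA hqM) u ∧ IsOneUnit (V2X0 hA hqM) u

theorem isMulPred_isOneUnitX0 : IsMulPred (IsOneUnitX0 hA hqM) :=
  isMulPred_isOneUnit₂ (V1X0 hA hqM) (V2X0 hA hqM)

/-- **The `1`-unit classes of level `n` of `J₀(M q)` at `A ∣ q`**: the classes `[D]` with
`n D = div (h ^ n u)`, `u ≡ 1` modulo both Gauss valuations (equivalently `n D = div u`,
`exists_strict_of_mem_oneUnit`). -/
def oneUnit (n : ℕ) : AddSubgroup (JZero (M * q)) :=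
  kummerClasses (K := Kb) (isMulPred_isOneUnitX0 hA hqM) n

theorem mem_oneUnit (n : ℕ) (y : JZero (M * q)) :
    y ∈ oneUnit hA hqM n ↔
      ∃ (D : Divisor.degZero (K := Kb) (F := ↥(modularFunctionFieldBar (M * q))))
        (u h : ↥(modularFunctionFieldBar (M * q))), y = Pic0.mk D ∧ u ≠ 0 ∧ h ≠ 0 ∧
        (IsOneUnit (V1X0 hA hqM) u ∧ IsOneUnit (V2X0 hA hqM) u) ∧
        ∀ w : Place Kb ↥(modularFunctionFieldBar (M * q)),
          n * (D : Divisor Kb ↥(modularFunctionFieldBar (M * q))) w = w.ord u + n * w.ord h :=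
  Iff.rfl

/-- Every `1`-unit class of level `n` has a strict representative: `n D = div u`, `u ≡ 1`. -/
theorem exists_strict_of_mem_oneUnit {n : ℕ} {y : JZero (M * q)} (hy : y ∈ oneUnit hA hqM n) :
    ∃ (D : Divisor.degZero (K := Kb) (F := ↥(modularFunctionFieldBar (M * q))))
      (u : ↥(modularFunctionFieldBar (M * q))), y = Pic0.mk D ∧ u ≠ 0 ∧
      IsOneUnit (V1X0 hA hqM) u ∧ IsOneUnit (V2X0 hA hqM) u ∧
      ∀ w : Place Kb ↥(modularFunctionFieldBar (M * q)),
        w.ord u = n * (D : Divisor Kb ↥(modularFunctionFieldBar (M * q))) w := by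
  haveI : HasPrincipalDivisors Kb ↥(modularFunctionFieldBar (M * q)) :=
    Fermat.Agent.S18.A.Instances.hasPrincipalDivisors_bar (M * q)
  obtain ⟨D, u, hyD, hu, hPu, hD⟩ := exists_strict (K := Kb) (isMulPred_isOneUnitX0 hA hqM) hy
  exact ⟨D, u, hyD, hu, hPu.1, hPu.2, hD⟩

/-- The strict form is sufficient for membership. -/
theorem mem_oneUnit_of_strict {n : ℕ}
    (D : Divisor.degZero (K := Kb) (F := ↥(modularFunctionFieldBar (M * q))))
    {u : ↥(modularFunctionFieldBar (M * q))} (hu : u ≠ 0)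
    (h1 : IsOneUnit (V1X0 hA hqM) u) (h2 : IsOneUnit (V2X0 hA hqM) u)
    (hD : ∀ w : Place Kb ↥(modularFunctionFieldBar (M * q)),
      w.ord u = n * (D : Divisor Kb ↥(modularFunctionFieldBar (M * q))) w) :
    Pic0.mk D ∈ oneUnit hA hqM n :=
  mem_kummerClasses_of_strict (K := Kb) (isMulPred_isOneUnitX0 hA hqM) D hu ⟨h1, h2⟩ hD

/-- A `1`-unit class of level `n` is killed by `n`. -/
theorem nsmul_eq_zero_of_mem_oneUnit {n : ℕ} {y : JZero (M * q)} (hy : y ∈ oneUnit hA hqM n) :
    n • y = 0 :=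
  nsmul_eq_zero_of_mem (K := Kb) (isMulPred_isOneUnitX0 hA hqM) hy

/-- Monotonicity in the level. -/
theorem oneUnit_le_mul (n m : ℕ) : oneUnit hA hqM n ≤ oneUnit hA hqM (n * m) :=
  kummerClasses_le_mul (K := Kb) (isMulPred_isOneUnitX0 hA hqM) n m

section Inertia

variable {σ : Kb ≃ₐ[ℚ] Kb} (hσ : σ ∈ A.inertiaSubgroupIn ℚ)

include hσ in
/-- inertia preserves `1 + 𝔪₁ ∩ 1 + 𝔪₂` -/
theorem isOneUnitX0_smul {u : ↥(modularFunctionFieldBar (M * q))} (hu : IsOneUnitX0 hA hqM u) :
    IsOneUnitX0 hA hqM (arithmeticGalois (modularFunctionFieldFull (M * q)) σ • u) :=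
  ⟨isOneUnit_of_sub_mem hu.1
      (smul_sub_mem_nonunits₁ hA hqM hσ (mem_of_valuation_eq_one hu.1.valuation_eq_one)),
    isOneUnit_of_sub_mem hu.2
      (smul_sub_mem_nonunits₂ hA hqM hσ (mem_of_valuation_eq_one hu.2.valuation_eq_one))⟩

include hσ in
/-- **The leaf.** For `σ` in the inertia group of `A ∣ q` and EVERY `n ≠ 0` (in particular
`n = q ^ k`), `σ` moves every `n`-torsion class of `J₀(M q)` by a `1`-unit class of level `n`. -/
theorem smul_sub_mem_oneUnit {n : ℕ} (hn : n ≠ 0) (y : JZero (M * q)) (hy : n • y = 0) :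
    σ • y - y ∈ oneUnit hA hqM n := by
  rw [galois_smul_pic0_def]
  refine smul_sub_mem_of_decomposition (K := Kb) (isMulPred_isOneUnitX0 hA hqM)
    (arithmeticGalois (modularFunctionFieldFull (M * q)) σ) (fun f hf => ?_) y hy
  obtain ⟨h, u, hh, hu, h1, h2, hgf⟩ := exists_kummer_decomposition_X0 hA hqM hσ n hn f hf.1
  exact ⟨1, h, u, one_ne_zero, hh, hu, ⟨h1, h2⟩, by rw [hgf, map_one, one_mul]⟩

include hσ in
/-- inertia preserves the `1`-unit classes of every level -/
theorem smul_mem_oneUnit {n : ℕ} {y : JZero (M * q)} (hy : y ∈ oneUnit hA hqM n) :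
    σ • y ∈ oneUnit hA hqM n := by
  rw [galois_smul_pic0_def]
  exact smul_mem_kummerClasses (K := Kb) (isMulPred_isOneUnitX0 hA hqM)
    (arithmeticGalois (modularFunctionFieldFull (M * q)) σ)
    (fun u hu => isOneUnitX0_smul hA hqM hσ hu) hy

end Inertia

end X0

end Fermat.Agent.S33.KP.OneUnit
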