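/-
PROJECT N (S33), leaf (R2), part 4 (helper3): THE FINITE LEVEL `Λ_k = T_p J / pᵏ T_p J` OF A TATE MODULE.

`J` an abelian group with an action of a group `G`, `Tp p J` main's Tate module
(`S30/Padic/TateModule`).  `Lk p J k := Tp p J ⧸ pᵏ Tp p J` is a `ℤ_p`-module on which `ℤ_p` acts
through integers (`exists_int_smul`), it embeds `G`-equivariantly into `J[pᵏ]` by the `k`-th
coordinate (`coordQ`, `coordQ_injective`, `coordQ_rk`, `pow_nsmul_coordQ`), hence is finite when
`J[pᵏ]` is (`finite_Lk`); `rk` is the reduced Galois action (`S32/TransferCore.redEnd`).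
-/
import Fermat.Agent.S30.Padic.TateModule
import Fermat.Agent.S32.TransferCore

set_option autoImplicit false

noncomputable section

namespace Fermat.Agent.S33.KP.LevelFrame

open Fermat.Agent.S30.Padic.TateModule Fermat.Agent.S32.TransferCore

variable (p : ℕ) [Fact p.Prime] (J : Type*) [AddCommGroup J]

/-- `pᵏ T_p J`. -/
abbrev Nk (k : ℕ) : Submodule ℤ_[p] (Tp p J) :=
  (Ideal.span {(p : ℤ_[p])} ^ k) • (⊤ : Submodule ℤ_[p] (Tp p J))

/-- `Λ_k = T_p J / pᵏ T_p J`. -/
abbrev Lk (k : ℕ) : Type _ := Tp p J ⧸ Nk p J k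

/-- The `k`-th coordinate `T_p J → J`. -/
def coordK (k : ℕ) : Tp p J →+ J where
  toFun v := v.1 k
  map_zero' := rfl
  map_add' _ _ := rfl

@[simp] theorem coordK_apply (k : ℕ) (v : Tp p J) : coordK p J k v = v.1 k := rfl

/-- The `k`-th coordinate `Λ_k → J`. -/
def coordQ (k : ℕ) : Lk p J k →+ J :=
  QuotientAddGroup.lift (Nk p J k).toAddSubgroup (coordK p J k) (fun v hv =>
    (Tp.mem_pow_smul_top_iff v k).mp hv)

@[simp] theorem coordQ_mk (k : ℕ) (v : Tp p J) :
    coordQ p J k (Submodule.Quotient.mk v) = v.1 k := rfl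

theorem coordQ_injective (k : ℕ) : Function.Injective (coordQ p J k) := by
  rw [injective_iff_map_eq_zero]
  intro y hy
  induction y using Submodule.Quotient.induction_on with
  | H v =>
    rw [coordQ_mk] at hy
    exact (Submodule.Quotient.mk_eq_zero _).mpr ((Tp.mem_pow_smul_top_iff v k).mpr hy)

theorem pow_nsmul_coordQ (k : ℕ) (y : Lk p J k) : p ^ k • coordQ p J k y = 0 := by
  induction y using Submodule.Quotient.induction_on with
  | H v =>
    rw [coordQ_mk]
    exact Tp.pow_smul_apply v k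

/-- `Λ_k` is finite when `J[pᵏ]` is. -/
theorem finite_Lk (k : ℕ) (hfin : {y : J | p ^ k • y = 0}.Finite) : Finite (Lk p J k) := by
  have := hfin.to_subtype
  exact Finite.of_injective (fun y : Lk p J k =>
    (⟨coordQ p J k y, pow_nsmul_coordQ p J k y⟩ : {y : J | p ^ k • y = 0}))
    (fun a b hab => coordQ_injective p J k (congrArg Subtype.val hab))

/-- `ℤ_p` acts on `Λ_k` through integers. -/
theorem exists_int_smul (k : ℕ) (c : ℤ_[p]) : ∃ χ : ℤ, ∀ y : Lk p J k, c • y = χ • y := by
  refine ⟨(c.appr k : ℤ), fun y => ?_⟩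
  induction y using Submodule.Quotient.induction_on with
  | H v =>
    rw [← Submodule.Quotient.mk_smul, ← Submodule.Quotient.mk_smul, Submodule.Quotient.eq]
    have h1 : c - (c.appr k : ℤ_[p]) ∈ Ideal.span {(p : ℤ_[p])} ^ k := by
      rw [Ideal.span_singleton_pow]
      exact PadicInt.appr_spec k c
    have h2 : c • v - (c.appr k : ℤ) • v = (c - (c.appr k : ℤ_[p])) • v := by
      rw [sub_smul, ← Int.cast_smul_eq_zsmul ℤ_[p], Int.cast_natCast]
    rw [h2]
    exact Submodule.smul_mem_smul h1 Submodule.mem_top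

variable {G : Type*} [Group G] [DistribMulAction G J]

/-- The Galois action on `Λ_k`. -/
def rk (k : ℕ) : G →* Module.End ℤ_[p] (Lk p J k) :=
  ((redEnd (Ideal.span {(p : ℤ_[p])} ^ k) :
    Module.End ℤ_[p] (Tp p J) →ₐ[ℤ_[p]] _) : Module.End ℤ_[p] (Tp p J) →* _).comp
    (Tp.galoisHom (p := p) (J := J) G)

@[simp] theorem rk_mk (k : ℕ) (g : G) (v : Tp p J) :
    rk p J k g (Submodule.Quotient.mk v) = Submodule.Quotient.mk (Tp.galoisHom G g v) := rfl

theorem coordQ_rk (k : ℕ) (g : G) (y : Lk p J k) :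
    coordQ p J k (rk p J k g y) = g • coordQ p J k y := by
  induction y using Submodule.Quotient.induction_on with
  | H v => rfl

end Fermat.Agent.S33.KP.LevelFrame
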